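import Fermat.Agent.CFT.Flat.Slots
import Fermat.Agent.Two.Interface

/-!
# The two-torsion of a `TwoCurve` at two

Good supersingular reduction at `2`: the roots of the two-torsion polynomial have absolute value
`2^{2/3}`, so they are fixed by tame inertia of level two and moved by a generator of the tame
quotient.  Inertia fixes the square roots of the discriminant.
-/

set_option autoImplicit false
set_option linter.style.haveILetI false
set_option linter.unusedSectionVars false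

noncomputable section

namespace Fermat.Agent.Two.Flat

open Fermat.Agent.Arith Fermat.Agent.CFT.Flat Fermat.Agent.Deform Fermat.Agent.EC.Rep
open scoped WeierstrassCurve.Affine

variable {W : WeierstrassCurve ℤ}

theorem nrm_intCast_le_of_dvd {n : ℤ} {j : ℕ} (h : (2 : ℤ) ^ j ∣ n) :
    nrm 2 (n : QBar) ≤ (1 / 2) ^ j := by
  obtain ⟨m, rfl⟩ := h
  rw [Int.cast_mul, Int.cast_pow, nrm_mul, nrm_pow, Int.cast_ofNat,
    show nrm 2 (2 : QBar) = 1 / 2 by
      have h2 := nrm_natCast_self 2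
      push_cast at h2
      rw [h2, one_div]]
  exact mul_le_of_le_one_right (by positivity) (nrm_intCast_le_one 2 m)

theorem nrm_intCast_eq_one {n : ℤ} (h : ¬ (2 : ℤ) ∣ n) : nrm 2 (n : QBar) = 1 := by
  obtain ⟨m, rfl | rfl⟩ := n.eq_nat_or_neg
  · rw [Int.cast_natCast]
    exact nrm_natCast_eq_one 2 fun h2 => h (by exact_mod_cast h2)
  · rw [Int.cast_neg, Int.cast_natCast, nrm_neg]
    exact nrm_natCast_eq_one 2 fun h2 => h (dvd_neg.mpr (by exact_mod_cast h2))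

theorem four_dvd_b₂ (hW : TwoCurve W) : (4 : ℤ) ∣ W.b₂ := by
  obtain ⟨a, ha⟩ := hW.two_dvd_a₁
  exact ⟨a ^ 2 + W.a₂, by rw [WeierstrassCurve.b₂, ha]; ring⟩

theorem two_dvd_b₄ (hW : TwoCurve W) : (2 : ℤ) ∣ W.b₄ := by
  obtain ⟨a, ha⟩ := hW.two_dvd_a₁
  exact ⟨W.a₄ + a * W.a₃, by rw [WeierstrassCurve.b₄, ha]; ring⟩

theorem not_two_dvd_b₆ (hW : TwoCurve W) : ¬ (2 : ℤ) ∣ W.b₆ := by
  rintro ⟨γ, hγ⟩
  obtain ⟨β, hβ⟩ := four_dvd_b₂ hW
  obtain ⟨δ, hδ⟩ := two_dvd_b₄ hW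
  exact hW.two_not_dvd_Δ ⟨-8 * β ^ 2 * W.b₈ - 32 * δ ^ 3 - 54 * γ ^ 2 + 72 * β * δ * γ, by
    simp only [WeierstrassCurve.Δ, hβ, hδ, hγ]; ring⟩

theorem four_dvd_Δ_sub_one (hW : TwoCurve W) : (4 : ℤ) ∣ W.Δ - 1 := by
  obtain ⟨β, hβ⟩ := four_dvd_b₂ hW
  obtain ⟨δ, hδ⟩ := two_dvd_b₄ hW
  obtain ⟨γ, hγ⟩ : Odd W.b₆ := Int.not_even_iff_odd.mp fun h =>
    not_two_dvd_b₆ hW (even_iff_two_dvd.mp h)
  exact ⟨-4 * β ^ 2 * W.b₈ - 16 * δ ^ 3 - 27 * (γ ^ 2 + γ) + 18 * β * δ * W.b₆ - 7, by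
    simp only [WeierstrassCurve.Δ, hβ, hδ, hγ]; ring⟩

/-- The roots of the two-torsion polynomial under inertia. -/
theorem root_inertia (hW : TwoCurve W) {e : QBar}
    (he : 4 * e ^ 3 + (W.b₂ : QBar) * e ^ 2 + 2 * (W.b₄ : QBar) * e + (W.b₆ : QBar) = 0) :
    (∀ σ ∈ tame 2, σ e = e) ∧
      ∀ τ ∈ inG 2, IsPrimitiveRoot (theta 2 τ) (e₀ 2) → τ e ≠ e := by
  set ϖ := rad 2
  have hϖ : ϖ ^ 3 = 2 := by
    have h := rad_pow 2
    rw [show e₀ 2 = 3 from rfl] at h
    exact_mod_cast h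
  have hϖ0 : ϖ ≠ 0 := rad_ne_zero 2
  have hq0 : 0 < nrm 2 ϖ := nrm_pos 2 hϖ0
  have hq1 : nrm 2 ϖ < 1 := (isUnif_rad 2).lt_one
  have hq3 : nrm 2 ϖ ^ 3 = 1 / 2 := by
    rw [← Fermat.Agent.CFT.Flat.nrm_pow, hϖ]
    have h2 := nrm_natCast_self 2
    push_cast at h2
    rw [h2, one_div]
  set B : QBar := (W.b₂ : QBar) / ϖ ^ 4 with hB
  set C : QBar := 2 * (W.b₄ : QBar) / ϖ ^ 2 with hC
  set D : QBar := (W.b₆ : QBar) with hD
  set u := ϖ ^ 2 * e with hu
  have hg : u ^ 3 + B * u ^ 2 + C * u + D = 0 := by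
    rw [← he, hu, hB, hC]
    field_simp
    linear_combination (e ^ 3 * (ϖ ^ 3 + 2)) * hϖ
  have hBle : nrm 2 B < 1 := by
    rw [hB, nrm_div, Fermat.Agent.CFT.Flat.nrm_pow, div_lt_one (pow_pos hq0 4)]
    refine (nrm_intCast_le_of_dvd (j := 2) (four_dvd_b₂ hW)).trans_lt ?_
    rw [← hq3, ← pow_mul]
    exact pow_lt_pow_right_of_lt_one₀ hq0 hq1 (by omega)
  have hCle : nrm 2 C < 1 := by
    have h4 : (2 : ℤ) ^ 2 ∣ 2 * W.b₄ := by
      rw [sq]; exact mul_dvd_mul_left 2 (two_dvd_b₄ hW)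
    rw [hC, nrm_div, Fermat.Agent.CFT.Flat.nrm_pow, div_lt_one (pow_pos hq0 2),
      show (2 : QBar) * (W.b₄ : QBar) = ((2 * W.b₄ : ℤ) : QBar) by push_cast; ring]
    refine (nrm_intCast_le_of_dvd (j := 2) h4).trans_lt ?_
    rw [← hq3, ← pow_mul]
    exact pow_lt_pow_right_of_lt_one₀ hq0 hq1 (by omega)
  have hD1 : nrm 2 D = 1 := nrm_intCast_eq_one (not_two_dvd_b₆ hW)
  have hule : nrm 2 u ≤ 1 := by
    by_contra hlt
    rw [not_le] at hlt
    have hrest : nrm 2 (B * u ^ 2 + C * u + D) < nrm 2 (u ^ 3) := by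
      rw [Fermat.Agent.CFT.Flat.nrm_pow]
      have h23 : nrm 2 u ^ 2 ≤ nrm 2 u ^ 3 := pow_le_pow_right₀ hlt.le (by omega)
      have h13 : nrm 2 u ≤ nrm 2 u ^ 3 := le_self_pow₀ hlt.le (by omega)
      refine nrm_add_lt_of_lt 2 (nrm_add_lt_of_lt 2 ?_ ?_) ?_
      · rw [nrm_mul, Fermat.Agent.CFT.Flat.nrm_pow]
        exact (mul_lt_of_lt_one_left (pow_pos (zero_lt_one.trans hlt) 2) hBle).trans_le h23
      · rw [nrm_mul]
        exact (mul_lt_of_lt_one_left (zero_lt_one.trans hlt) hCle).trans_le h13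
      · rw [hD1]; exact one_lt_pow₀ hlt (by omega)
    have h3 := nrm_add_eq_of_lt 2 hrest
    rw [show u ^ 3 + (B * u ^ 2 + C * u + D) = 0 by rw [← hg]; ring, nrm_zero] at h3
    rw [← h3] at hrest
    exact absurd hrest (not_lt.mpr (nrm_nonneg 2 _))
  have hu1 : nrm 2 u = 1 := by
    have hsmall : nrm 2 (B * u ^ 2 + C * u) < 1 := by
      refine nrm_add_lt_of_lt 2 ?_ ?_ <;> rw [nrm_mul]
      · exact (mul_le_of_le_one_right (nrm_nonneg 2 _) (by
          rw [Fermat.Agent.CFT.Flat.nrm_pow]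
          exact pow_le_one₀ (nrm_nonneg 2 _) hule)).trans_lt hBle
      · exact (mul_le_of_le_one_right (nrm_nonneg 2 _) hule).trans_lt hCle
    have h3 : nrm 2 (u ^ 3) = 1 := by
      rw [show u ^ 3 = -D + -(B * u ^ 2 + C * u) by linear_combination hg,
        nrm_add_eq_of_lt 2 (by rw [nrm_neg, nrm_neg, hD1]; exact hsmall), nrm_neg, hD1]
    rw [Fermat.Agent.CFT.Flat.nrm_pow] at h3
    exact (pow_eq_one_iff_of_nonneg (nrm_nonneg 2 _) (by omega)).mp h3
  refine ⟨fun σ hσ => ?_, fun τ hτ hprim hfix => ?_⟩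
  · obtain ⟨hσI, hσϖ⟩ := (mem_tame 2).mp hσ
    have hσu : σ u = ϖ ^ 2 * σ e := by rw [hu, map_mul, map_pow, hσϖ]
    have hσg : σ u ^ 3 + B * σ u ^ 2 + C * σ u + D = 0 := by
      have h := congrArg σ hg
      rwa [map_add, map_add, map_add, map_mul, map_mul, map_pow, map_pow, map_zero,
        show σ B = B by rw [hB, map_div₀, map_intCast, map_pow, hσϖ],
        show σ C = C by rw [hC, map_div₀, map_mul, map_intCast, map_ofNat, map_pow, hσϖ],
        show σ D = D by rw [hD, map_intCast]] at h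
    have hd := nrm_sub_lt_one_of_mem_inG 2 hσI hule
    have hs1 : nrm 2 (σ u) ≤ 1 := (nrm_map_of_mem_inG 2 hσI u).trans_le hule
    set s := σ u with hs
    have hmul : (s - u) * (s ^ 2 + s * u + u ^ 2 + B * (s + u) + C) = 0 := by
      linear_combination hσg - hg
    rcases mul_eq_zero.mp hmul with h0 | h0
    · rw [sub_eq_zero, hσu, hu] at h0
      exact mul_left_cancel₀ (pow_ne_zero 2 hϖ0) h0
    · exfalso
      have h3u : nrm 2 ((3 : QBar) * u ^ 2) = 1 := by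
        rw [nrm_mul, Fermat.Agent.CFT.Flat.nrm_pow, hu1, one_pow, mul_one]
        have := nrm_natCast_eq_one 2 (n := 3) (by omega)
        exact_mod_cast this
      have hlt : nrm 2 ((s - u) * (s + 2 * u) + B * (s + u) + C) < 1 := by
        refine nrm_add_lt_of_lt 2 (nrm_add_lt_of_lt 2 ?_ ?_) hCle <;> rw [nrm_mul]
        · refine (mul_le_of_le_one_right (nrm_nonneg 2 _) (nrm_add_le_of_le 2 hs1 ?_)).trans_lt hd
          rw [nrm_mul]
          exact mul_le_one₀ (by simpa using nrm_natCast_le_one 2 2) (nrm_nonneg 2 _) hule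
        · exact (mul_le_of_le_one_right (nrm_nonneg 2 _)
            (nrm_add_le_of_le 2 hs1 hule)).trans_lt hBle
      have hz := nrm_add_eq_of_lt 2 (hlt.trans_eq h3u.symm)
      rw [show 3 * u ^ 2 + ((s - u) * (s + 2 * u) + B * (s + u) + C) = 0 by rw [← h0]; ring,
        nrm_zero, h3u] at hz
      exact zero_ne_one hz
  · have hd := nrm_sub_lt_one_of_mem_inG 2 hτ hule
    rw [hu, map_mul, map_pow, map_rad, hfix,
      show (theta 2 τ * ϖ) ^ 2 * e - ϖ ^ 2 * e = (theta 2 τ ^ 2 - 1) * (ϖ ^ 2 * e) by ring,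
      nrm_mul, hu1, mul_one] at hd
    have hθ := (nrm_root 2 (e₀_pos 2) (theta_pow 2 τ)).le
    have h2 : thetaBar 2 τ ^ 2 = 1 := by
      rw [thetaBar, ← res_pow 2 hθ, ← res_one 2,
        res_eq_iff 2 (by rw [Fermat.Agent.CFT.Flat.nrm_pow]; exact pow_le_one₀ (nrm_nonneg 2 _) hθ)
          (nrm_one 2).le]
      exact hd
    have h3 := (isPrimitiveRoot_thetaBar (p := 2) hprim).dvd_of_pow_eq_one 2 h2
    rw [show e₀ 2 = 3 from rfl] at h3
    omega

/-- A point of order two is moved exactly as its root. -/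
theorem point_root (W : WeierstrassCurve ℤ) (P : PtQ W) (hP : P ≠ 0) (h2 : (2 : ℤ) • P = 0) :
    ∃ e : QBar, 4 * e ^ 3 + (W.b₂ : QBar) * e ^ 2 + 2 * (W.b₄ : QBar) * e + (W.b₆ : QBar) = 0 ∧
      ∀ σ : GQ, σ • P = P ↔ σ e = e := by
  rcases P with _ | ⟨x, y, hns⟩
  · exact absurd rfl hP
  rw [two_zsmul, add_eq_zero_iff_eq_neg, WeierstrassCurve.Affine.Point.neg_some] at h2
  simp only [WeierstrassCurve.Affine.Point.some.injEq, WeierstrassCurve.Affine.negY,
    true_and] at h2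
  have h2y : 2 * y + (W.a₁ : QBar) * x + (W.a₃ : QBar) = 0 := by
    simp [WeierstrassCurve.baseChange] at h2
    linear_combination h2
  refine ⟨x, ?_, fun σ => ?_⟩
  · have heq := hns.1
    rw [WeierstrassCurve.Affine.equation_iff] at heq
    simp [WeierstrassCurve.baseChange] at heq
    simp only [WeierstrassCurve.b₂, WeierstrassCurve.b₄, WeierstrassCurve.b₆, Int.cast_add,
      Int.cast_mul, Int.cast_pow, Int.cast_ofNat]
    linear_combination (2 * y + (W.a₁ : QBar) * x + (W.a₃ : QBar)) * h2y - 4 * heq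
  · simp only [WeierstrassCurve.Affine.Point.algEquiv_smul_def,
      WeierstrassCurve.Affine.Point.map_some, WeierstrassCurve.Affine.Point.some.injEq]
    refine ⟨fun h => h.1, fun h => ⟨h, ?_⟩⟩
    have h' := congrArg σ h2y
    rw [map_add, map_add, map_mul, map_mul, map_ofNat, map_intCast, map_intCast, h, map_zero] at h'
    show σ y = y
    linear_combination (h' - h2y) / 2

/-- A two-torsion point other than the origin is moved exactly as its root. -/
theorem torsion_point (hW : TwoCurve W) (P : (residualRep W 2 hW.Δ_ne_zero).V) (hP : P ≠ 0) :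
    ∃ e : QBar, 4 * e ^ 3 + (W.b₂ : QBar) * e ^ 2 + 2 * (W.b₄ : QBar) * e + (W.b₆ : QBar) = 0 ∧
      ∀ σ : GQ, (residualRep W 2 hW.Δ_ne_zero).ρ σ P = P ↔ σ e = e := by
  obtain ⟨e, he, hiff⟩ := point_root W (Subtype.val P) (fun h0 => hP (Subtype.ext h0)) P.2
  exact ⟨e, he, fun σ => Iff.trans Subtype.ext_iff (hiff σ)⟩

/-- Tame inertia of level two is trivial on `W[2]`. -/
theorem matRes_tame (hW : TwoCurve W)
    (b : Module.Basis (Fin 2) (ZMod 2) (residualRep W 2 hW.Δ_ne_zero).V) {σ : GQ}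
    (hσ : σ ∈ tame 2) : matRes (residualRep W 2 hW.Δ_ne_zero) b σ = 1 := by
  have h1 : (residualRep W 2 hW.Δ_ne_zero).ρ σ = 1 := LinearMap.ext fun P => by
    rcases eq_or_ne P 0 with rfl | hP
    · simp
    obtain ⟨e, he, hiff⟩ := torsion_point hW P hP
    exact (hiff σ).mpr ((root_inertia hW he).1 σ hσ)
  show LinearMap.toMatrixAlgEquiv b ((residualRep W 2 hW.Δ_ne_zero).ρ σ) = 1
  rw [h1, map_one]

/-- Inertia at two contains an element without fixed vector on `W[2]`. -/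
theorem exists_inertia_det_ne_zero (hW : TwoCurve W)
    (b : Module.Basis (Fin 2) (ZMod 2) (residualRep W 2 hW.Δ_ne_zero).V) :
    ∃ τ ∈ inG 2, (matRes (residualRep W 2 hW.Δ_ne_zero) b τ - 1).det ≠ 0 := by
  obtain ⟨τ, hτ, hprim, -⟩ := exists_tame_generator 2
  refine ⟨τ, hτ, fun h0 => ?_⟩
  obtain ⟨v, hv, hv0⟩ := Matrix.exists_mulVec_eq_zero_iff.mpr h0
  set P := b.equivFun.symm v with hP
  have hPne : P ≠ 0 := fun h => hv (by
    rw [← b.equivFun.apply_symm_apply v, ← hP, h, map_zero])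
  obtain ⟨e, he, hiff⟩ := torsion_point hW P hPne
  refine (root_inertia hW he).2 τ hτ hprim ((hiff τ).mp ?_)
  rw [Matrix.sub_mulVec, Matrix.one_mulVec, sub_eq_zero] at hv0
  apply b.equivFun.injective
  have h := LinearMap.toMatrix_mulVec_repr b b ((residualRep W 2 hW.Δ_ne_zero).ρ τ) P
  have hv' : ⇑(b.repr P) = v := by
    rw [← b.equivFun_apply, hP, LinearEquiv.apply_symm_apply]
  rw [hv'] at h
  rw [b.equivFun_apply, b.equivFun_apply, hv', ← h]
  exact hv0

/-- Inertia at two fixes the square roots of the discriminant. -/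
theorem inG_le_galK (hW : TwoCurve W) : inG 2 ≤ galK W := by
  intro σ hσ
  have hS : ∀ y : QBar, y ^ 2 = (W.Δ : QBar) → σ y = y := by
    intro y hy
    obtain ⟨c, hc⟩ := four_dvd_Δ_sub_one hW
    set z := (y + 1) / 2 with hz
    have hz2 : z ^ 2 - z = (c : QBar) := by
      have hc' : (W.Δ : QBar) - 1 = 4 * (c : QBar) := by exact_mod_cast congrArg (Int.cast : ℤ → QBar) hc
      rw [hz]
      linear_combination (1 / 4 : QBar) * hy + (1 / 4 : QBar) * hc'
    have hzle : nrm 2 z ≤ 1 := by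
      by_contra hlt
      rw [not_le] at hlt
      have h1 : nrm 2 (-z) < nrm 2 (z ^ 2) := by
        rw [nrm_neg, Fermat.Agent.CFT.Flat.nrm_pow, sq]
        exact lt_mul_of_one_lt_left (zero_lt_one.trans hlt) hlt
      have h2 := nrm_add_eq_of_lt 2 h1
      rw [← sub_eq_add_neg, hz2] at h2
      have h3 := nrm_intCast_le_one 2 c
      rw [h2, Fermat.Agent.CFT.Flat.nrm_pow] at h3
      exact absurd h3 (not_le.mpr (one_lt_pow₀ hlt two_ne_zero))
    have hy' : y = 2 * z - 1 := by rw [hz]; ring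
    have hyσ : σ y ^ 2 = y ^ 2 := by rw [← map_pow, hy, map_intCast]
    rcases sq_eq_sq_iff_eq_or_eq_neg.mp hyσ with h | h
    · exact h
    exfalso
    have hd := nrm_sub_lt_one_of_mem_inG 2 hσ hzle
    rw [show σ z - z = -y by
      rw [hz, map_div₀, map_add, map_one, map_ofNat, h]; ring, nrm_neg] at hd
    have h1 : nrm 2 y ^ 2 = 1 := by
      rw [← Fermat.Agent.CFT.Flat.nrm_pow, hy]
      exact nrm_intCast_eq_one hW.two_not_dvd_Δ
    rw [(pow_eq_one_iff_of_nonneg (nrm_nonneg 2 _) two_ne_zero).mp h1] at hd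
    exact lt_irrefl _ hd
  rw [galK, IntermediateField.mem_fixingSubgroup_iff]
  intro x hx
  refine IntermediateField.adjoin_induction ℚ (p := fun x _ => σ x = x) (fun y hy => hS y hy)
    (fun q => σ.commutes q) (fun a b _ _ ha hb => by rw [map_add, ha, hb])
    (fun a _ ha => by rw [map_inv₀, ha]) (fun a b _ _ ha hb => by rw [map_mul, ha, hb]) hx

end Fermat.Agent.Two.Flat
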