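import Fermat.Agent.Two.Flat.Simple

/-!
# The first slot vanishes for connected orders at two

A character of tame inertia read off a point `P` modulo a line `{0, n}` of a fixed plane has a
radical congruent to one at level five.
-/

set_option autoImplicit false
set_option linter.style.haveILetI false
set_option linter.unusedSectionVars false

noncomputable section

namespace Fermat.Agent.Two.Flat

open Fermat.Agent.Arith Fermat.Agent.FiniteFlat Fermat.Agent.CFT.Flat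

theorem zp_two : zp 2 = -1 := (zp_spec 2).eq_neg_one_of_two_right

theorem nrm_mul_lt_qr_four {e x : QBar} (he : nrm 2 e < 1 / 2) (hx : nrm 2 x ^ 2 < 1 / 2) :
    nrm 2 (e * x) < qr ^ 4 := by
  refine lt_of_pow_lt_pow_left₀ 2 (pow_nonneg qr_pos.le 4) ?_
  rw [nrm_mul, mul_pow]
  calc nrm 2 e ^ 2 * nrm 2 x ^ 2 ≤ (1 / 2) ^ 2 * nrm 2 x ^ 2 :=
        mul_le_mul_of_nonneg_right (pow_le_pow_left₀ (nrm_nonneg 2 _) he.le 2) (sq_nonneg _)
    _ < (1 / 2) ^ 2 * (1 / 2) := mul_lt_mul_of_pos_left hx (by norm_num)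
    _ = qr ^ 9 := by rw [← qr_cube]; ring
    _ ≤ qr ^ 8 := qr_pow_le (by omega)
    _ = (qr ^ 4) ^ 2 := by ring

variable {M : Type} [AddCommGroup M] [Fintype M] [DistribMulAction GQ M] (O : GalOrder 2 M)

/-- The product over a coset of `{0, n}`. -/
def coord (f : O.H) (n x : M) : QBar := dv O (ver O f) x * dv O (ver O f) (x + n)

theorem coord_add_line (hkill : ∀ m : M, 2 • m = 0) (f : O.H) (n x : M) :
    coord O f n (x + n) = coord O f n x := by
  rw [coord, coord, add_assoc, ← two_nsmul, hkill, add_zero, mul_comm]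

theorem map_coord {σ : GQ} {n : M} (hn : σ • n = n) (f : O.H) (x : M) :
    σ (coord O f n x) = coord O f n (σ • x) := by
  rw [coord, coord, map_mul, ← dv_map, ← dv_map, smul_add, hn]

theorem nrm_coord_lt (hkill : ∀ m : M, 2 • m = 0) (hconn : conn O = ⊤) (f : O.H) (n x : M) :
    nrm 2 (coord O f n x) < 1 / 2 :=
  nrm_mul_lt_half (nrm_ver_sq_lt O hkill hconn f x) (nrm_ver_sq_lt O hkill hconn f (x + n))

/-- Translation across the line moves the product by exactly `2^{-4/3}`. -/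
theorem nrm_coord_sub (hkill : ∀ m : M, 2 • m = 0) (hconn : conn O = ⊤) (f : O.H) {n h : M}
    (hh : nrm 2 (dv O (ver O f) h) = qr ^ 2) (hhn : nrm 2 (dv O (ver O f) (h + n)) = qr ^ 2)
    (x : M) : nrm 2 (coord O f n (x + h) - coord O f n x) = qr ^ 4 := by
  simp only [coord, add_assoc]
  set A := dv O (ver O f) x
  set G := dv O (ver O f) h
  set N := dv O (ver O f) n
  set G' := dv O (ver O f) (h + n)
  set D := dv O (ver O f) (x + (h + n))
  set e0 := dv O (ver O f) (x + n) - A - N with he0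
  set e1 := dv O (ver O f) (x + h) - A - G with he1
  set e2 := D - A - G' with he2
  set e3 := G' - G - N with he3
  have b0 : nrm 2 e0 < 1 / 2 := nrm_ver_add_lt O hkill hconn f x n
  have b1 : nrm 2 e1 < 1 / 2 := nrm_ver_add_lt O hkill hconn f x h
  have b2 : nrm 2 e2 < 1 / 2 := nrm_ver_add_lt O hkill hconn f x (h + n)
  have b3 : nrm 2 e3 < 1 / 2 := nrm_ver_add_lt O hkill hconn f h n
  have bA : nrm 2 A ^ 2 < 1 / 2 := nrm_ver_sq_lt O hkill hconn f x
  have bG : nrm 2 G ^ 2 < 1 / 2 := nrm_ver_sq_lt O hkill hconn f h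
  have bD : nrm 2 D ^ 2 < 1 / 2 := nrm_ver_sq_lt O hkill hconn f (x + (h + n))
  have b4 : nrm 2 (2 * G) < 1 / 2 := by
    rw [nrm_mul, nrm_two, hh]
    exact mul_lt_of_lt_one_right (by norm_num) (pow_lt_one₀ qr_pos.le qr_lt_one two_ne_zero)
  have hmain : nrm 2 (G * G') = qr ^ 4 := by rw [nrm_mul, hh, hhn, ← pow_add]
  have key : dv O (ver O f) (x + h) * D - A * dv O (ver O f) (x + n) =
      G * G' + ((2 * G) * A + e3 * A + e2 * A + e2 * G + e1 * D - e0 * A) := by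
    simp only [he0, he1, he2, he3]
    ring
  rw [key, nrm_add_eq_of_lt 2 ?_, hmain]
  rw [hmain]
  exact nrm_sub_lt_of_lt 2 (nrm_add_lt_of_lt 2 (nrm_add_lt_of_lt 2 (nrm_add_lt_of_lt 2
    (nrm_add_lt_of_lt 2 (nrm_mul_lt_qr_four b4 bA) (nrm_mul_lt_qr_four b3 bA))
    (nrm_mul_lt_qr_four b2 bA)) (nrm_mul_lt_qr_four b2 bG)) (nrm_mul_lt_qr_four b1 bD))
    (nrm_mul_lt_qr_four b0 bA)

/-- A radical at level three of a character with such a coordinate is at level five. -/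
theorem hasDeep_of_point (hkill : ∀ m : M, 2 • m = 0) (hconn : conn O = ⊤) {χ : GQ → ZMod 2}
    (h3 : HasDeep 2 χ 3) (f : O.H) {n h P : M} (hn : ∀ σ ∈ tame 2, σ • n = n)
    (hhfix : ∀ σ ∈ tame 2, σ • h = h) (hh : nrm 2 (dv O (ver O f) h) = qr ^ 2)
    (hhn : nrm 2 (dv O (ver O f) (h + n)) = qr ^ 2)
    (h0 : ∀ σ ∈ tame 2, χ σ = 0 → σ • P = P ∨ σ • P = P + n)
    (h1 : ∀ σ ∈ tame 2, χ σ = 1 → σ • P = P + h ∨ σ • P = P + h + n) :
    HasDeep 2 χ 5 := by
  obtain ⟨α, hα, hle⟩ := h3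
  have u := isUnif_rad 2
  suffices h4 : nrm 2 (α ^ 2 - 1) ≤ qr ^ 4 by
    exact hα.exists_improve (i := 4) (by omega) (by omega) (by omega) h4
  have hfixα : ∀ σ ∈ tame 2, σ (α ^ 2 - 1) = α ^ 2 - 1 := fun σ hσ => by
    rw [map_sub, hα.pow_fixed σ hσ, map_one]
  refine u.nrm_le_of_lt hfixα (lt_of_le_of_ne hle fun heq => ?_)
  change nrm 2 (α ^ 2 - 1) = qr ^ 3 at heq
  -- the distance of `α` to one
  set t := α - 1 with ht
  have htl : nrm 2 (t * (t + 2)) = qr ^ 3 := by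
    rw [show t * (t + 2) = α ^ 2 - 1 by rw [ht]; ring, heq]
  have ht2 : nrm 2 t ^ 2 = qr ^ 3 := by
    rcases le_or_gt (nrm 2 t) (1 / 2) with hs | hs
    · have h22 : nrm 2 (t + 2) ≤ 1 / 2 := nrm_add_le_of_le 2 hs nrm_two.le
      have := mul_le_mul hs h22 (nrm_nonneg 2 _) (by norm_num)
      rw [← nrm_mul, htl, qr_cube] at this
      norm_num at this
    · rw [nrm_mul, nrm_add_eq_of_lt 2 (nrm_two.trans_lt hs)] at htl
      rw [sq, htl]
  have hα1 : nrm 2 α = 1 := by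
    have ht1 : nrm 2 t < 1 := by
      by_contra hge
      have := one_le_pow₀ (n := 2) (not_lt.mp hge)
      rw [ht2, qr_cube] at this
      norm_num at this
    rw [show α = 1 + t by rw [ht]; ring, nrm_add_eq_of_lt 2 (by rwa [nrm_one]), nrm_one]
  have h20 : (2 : QBar) * α ≠ 0 := mul_ne_zero two_ne_zero hα.1
  -- the coordinate lies in the quadratic extension
  set y0 := coord O f n P with hy0
  set y1 := coord O f n (P + h) with hy1
  have hσ : ∀ σ ∈ tame 2, (σ α = α ∧ σ y0 = y0 ∧ σ y1 = y1) ∨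
      (σ α = -α ∧ σ y0 = y1 ∧ σ y1 = y0) := by
    intro σ hσ
    have hασ := hα.2 σ hσ
    rcases (by decide : ∀ c : ZMod 2, c = 0 ∨ c = 1) (χ σ) with hc | hc <;> rw [hc] at hασ
    · refine Or.inl ⟨by rw [hασ, ZMod.val_zero, pow_zero, one_mul], ?_⟩
      rw [hy0, hy1, map_coord O (hn σ hσ), map_coord O (hn σ hσ), smul_add, hhfix σ hσ]
      rcases h0 σ hσ hc with e | e <;> rw [e]
      · exact ⟨rfl, rfl⟩
      · rw [add_right_comm P n h, coord_add_line O hkill, coord_add_line O hkill]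
        exact ⟨rfl, rfl⟩
    · refine Or.inr ⟨by rw [hασ, zp_two, ZMod.val_one, pow_one, neg_one_mul], ?_⟩
      rw [hy0, hy1, map_coord O (hn σ hσ), map_coord O (hn σ hσ), smul_add, hhfix σ hσ]
      have hhh : P + h + h = P := by rw [add_assoc, ← two_nsmul, hkill, add_zero]
      rcases h1 σ hσ hc with e | e <;> rw [e]
      · rw [hhh]; exact ⟨rfl, rfl⟩
      · rw [add_right_comm (P + h) n h, hhh, coord_add_line O hkill, coord_add_line O hkill]
        exact ⟨rfl, rfl⟩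
  set a := (y0 + y1) / 2 with ha
  set b := (y0 - y1) / (2 * α) with hb
  have hfixab : ∀ σ ∈ tame 2, σ (a + b) = a + b := by
    intro σ hσ'
    rcases hσ σ hσ' with ⟨ea, e0, e1⟩ | ⟨ea, e0, e1⟩
    · simp only [ha, hb, map_add, map_div₀, map_sub, map_mul, map_ofNat, ea, e0, e1]
    · simp only [ha, hb, map_add, map_div₀, map_sub, map_mul, map_ofNat, ea, e0, e1]
      rw [add_comm y1 y0, mul_neg, div_neg, ← neg_div, neg_sub]
  have hbn : nrm 2 b = qr := by
    rw [hb, nrm_div, nrm_mul, nrm_two, hα1, mul_one, nrm_sub_comm, hy1, hy0,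
      nrm_coord_sub O hkill hconn f hh hhn, ← qr_cube, pow_succ' qr 3,
      mul_div_assoc, div_self (pow_ne_zero 3 qr_pos.ne'), mul_one]
  have hy0b : y0 = (a + b) + b * t := by
    have : b * α = (y0 - y1) / 2 := by
      rw [hb, div_mul_eq_mul_div, mul_comm (2 : QBar) α, mul_comm _ α,
        mul_div_mul_left _ _ hα.1]
    rw [show (a + b) + b * t = a + b * α by rw [ht]; ring, this, ha]
    ring
  have hbt : nrm 2 (b * t) ^ 2 = qr ^ 5 := by
    rw [nrm_mul, mul_pow, hbn, ht2, ← pow_add]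
  have hlt : nrm 2 y0 < nrm 2 (b * t) := by
    refine lt_of_pow_lt_pow_left₀ 2 (nrm_nonneg 2 _) ?_
    rw [hbt]
    refine lt_of_lt_of_le (pow_lt_pow_left₀ (nrm_coord_lt O hkill hconn f n P) (nrm_nonneg 2 _)
      two_ne_zero) ?_
    rw [← qr_cube, ← pow_mul]
    exact qr_pow_le (by omega)
  have hab : nrm 2 (a + b) ^ 2 = qr ^ 5 := by
    rw [show a + b = -(b * t) + y0 by rw [hy0b]; ring,
      nrm_add_eq_of_lt 2 (by rwa [nrm_neg]), nrm_neg, hbt]
  have hne : a + b ≠ 0 := fun h0' => by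
    rw [h0', nrm_zero, zero_pow two_ne_zero] at hab
    exact (pow_pos qr_pos 5).ne hab
  obtain ⟨j, hj⟩ := u.exists_zpow hne hfixab
  rw [hj, ← zpow_natCast, ← zpow_natCast (qr : ℝ) 5, ← zpow_mul] at hab
  have := zpow_right_injective₀ qr_pos qr_lt_one.ne hab
  omega

/-- Connectedness from an element of inertia without coinvariants. -/
theorem conn_eq_top {τ : GQ} (hτ : τ ∈ inG 2) (hsurj : ∀ w : M, ∃ u, τ • u - u = w) :
    conn O = ⊤ := by
  rw [eq_top_iff]
  intro w _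
  obtain ⟨u, rfl⟩ := hsurj w
  exact smul_sub_mem_conn hτ u

/-- The statement on an arbitrary group killed by two with a plane permuted by inertia. -/
theorem hasDeep_of_plane (hkill : ∀ m : M, 2 • m = 0) (hconn : conn O = ⊤) {χ : GQ → ZMod 2}
    (h3 : HasDeep 2 χ 3) {g : M} (hg0 : g ≠ 0) {τ : GQ} (hτ : τ ∈ inG 2)
    (hg : ∀ σ ∈ tame 2, σ • g = g) (hg' : ∀ σ ∈ tame 2, σ • τ • g = τ • g)
    (hrel : τ • τ • g = g + τ • g) {n h P : M} (hn : ∀ σ ∈ tame 2, σ • n = n)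
    (hh : h = g ∨ h = τ • g ∨ h = g + τ • g)
    (hhn : h + n = g ∨ h + n = τ • g ∨ h + n = g + τ • g)
    (h0 : ∀ σ ∈ tame 2, χ σ = 0 → σ • P = P ∨ σ • P = P + n)
    (h1 : ∀ σ ∈ tame 2, χ σ = 1 → σ • P = P + h ∨ σ • P = P + h + n) :
    HasDeep 2 χ 5 := by
  obtain ⟨f, hf⟩ := exists_qr_value O hkill hconn hg0 hτ hg hg' hrel
  refine hasDeep_of_point O hkill hconn h3 f hn ?_ (hf h hh) (hf (h + n) hhn) h0 h1
  intro σ hσ
  rcases hh with rfl | rfl | rfl
  · exact hg σ hσ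
  · exact hg' σ hσ
  · rw [smul_add, hg σ hσ, hg' σ hσ]

end Fermat.Agent.Two.Flat
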