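import Fermat.Agent.CFT.Flat.Lift
import Fermat.Agent.Two.Flat.Deep

/-!
# The socle of a flat deformation at two

Let `ρ` be a representation over a finite local ring killed by `2`, with a Galois order at `2` on
its points, whose residual representation has values in `GL₂(𝔽₂)`, is trivial on tame inertia of
level two and has an element of order three in the image of inertia.  If on tame inertia `ρ` is
congruent to one modulo an element `ε` of the socle, the functionals of `(ρ - 1) / ε` have radicals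
congruent to one at level five.
-/

set_option autoImplicit false
set_option linter.style.haveILetI false
set_option linter.unusedSectionVars false

noncomputable section

namespace Fermat.Agent.Two.Flat

open Fermat.Agent.Arith Fermat.Agent.FiniteFlat Fermat.Agent.CFT.Flat Fermat.Agent.Deform
open Matrix

theorem zmod_two_cases (c : ZMod 2) : c = 0 ∨ c = 1 := by revert c; decide

theorem orbit_cases (a w₀ w₁ : ZMod 2) (h : ¬ (w₀ = 0 ∧ w₁ = 0)) :
    (w₀ = 1 ∧ w₁ = 0) ∨ (w₀ = a ∧ w₁ = 1) ∨ (w₀ = 1 + a ∧ w₁ = 1) := by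
  revert a w₀ w₁; decide

theorem col_cases (i : Fin 2) (u : Fin 2 → ZMod 2) :
    u = (if u i = 1 then (fun l => if l = i then (1 : ZMod 2) else 0) else 0) ∨
      u = (if u i = 1 then (fun l => if l = i then (1 : ZMod 2) else 0) else 0) +
        fun l => if l = i then (0 : ZMod 2) else 1 := by
  revert i u; decide

theorem order_three (a b c d : ZMod 2) (h : a * d - b * c ≠ 0)
    (h' : (a - 1) * (d - 1) - b * c ≠ 0) : c = 1 ∧ a * a + b * c = a + 1 ∧ c * a + d * c = c := by
  revert a b c d; decide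

variable {A k : Type} [CommRing A] [IsLocalRing A] [Finite A] [CharP A 2] [Field k] [CharP k 2]
  (red : A →+* k) {ρ : GQ →* M2 A} {ε : A}

theorem isUnit_of_red_ne_zero (hred : Function.Surjective red) {x : A} (hx : red x ≠ 0) :
    IsUnit x := by
  by_contra h
  have hm : x ∈ IsLocalRing.maximalIdeal A := h
  rw [← IsLocalRing.eq_maximalIdeal (RingHom.ker_isMaximal_of_surjective red hred)] at hm
  exact hx (RingHom.mem_ker.mp hm)

/-- One entry of the socle class. -/
theorem hasDeep_socle_entry (hred : Function.Surjective red) (hε : ε ≠ 0) (hεm : red ε = 0)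
    (hsoc : ∀ x, red x = 0 → ε * x = 0) (O : GalOrder 2 (MVec ρ))
    (hr : ∀ σ i j, red (ρ σ i j) = 0 ∨ red (ρ σ i j) = 1) {τ : GQ} (hτ : τ ∈ inG 2)
    (hne : ((ρ τ).map red - 1).det ≠ 0) (β : GQ → M2 A)
    (hβ : ∀ σ ∈ tame 2, ρ σ = 1 + ε • β σ) (φ : k →+ ZMod 2) (i j : Fin 2) :
    HasDeep 2 (fun σ => φ (red (β σ i j))) 5 := by
  classical
  by_cases hφ : ∀ s, φ s = 0
  · exact (hasDeep_zero 5).congr fun σ _ => (hφ _).symm
  push Not at hφ
  obtain ⟨k₀, hk₀⟩ := hφ
  obtain ⟨s, hs⟩ : ∃ s : A, φ (red s) = 1 := by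
    obtain ⟨s, rfl⟩ := hred k₀
    exact ⟨s, (zmod_two_cases _).resolve_left hk₀⟩
  set ψ : A →+ ZMod 2 := φ.comp red.toAddMonoidHom with hψ
  -- the residual matrices over the prime field
  set r₀ : GQ → M2 (ZMod 2) := fun σ => Matrix.of fun l l' =>
    if red (ρ σ l l') = 0 then 0 else 1 with hr₀
  have hψmul : ∀ σ l l' x, ψ (ρ σ l l' * x) = r₀ σ l l' * ψ x := fun σ l l' x => by
    rcases hr σ l l' with e | e <;> simp [hψ, hr₀, e]
  -- the stable subgroup
  let emb : (Fin 2 → A) →+ MVec ρ :=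
    AddMonoidHom.mk' (fun v => MVec.mk ρ fun l => ε * v l)
      fun v w => mvec_ext ρ fun l => mul_add ε (v l) (w l)
  let Z : AddSubgroup (Fin 2 → A) :=
    { carrier := {v | ∀ l, ψ (v l) = 0}
      zero_mem' := fun l => map_zero ψ
      add_mem' := fun {v w} hv hw l => by rw [Pi.add_apply, map_add, hv l, hw l, add_zero]
      neg_mem' := fun {v} hv l => by rw [Pi.neg_apply, map_neg, hv l, neg_zero] }
  let N : AddSubgroup (MVec ρ) := Z.map emb
  have hemb : ∀ σ (v : Fin 2 → A), σ • emb v = emb (ρ σ *ᵥ v) := fun σ v => by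
    refine mvec_ext ρ fun l => ?_
    rw [mvec_smul_apply]
    show ρ σ l 0 * (ε * v 0) + ρ σ l 1 * (ε * v 1) = ε * (ρ σ *ᵥ v) l
    simp only [Matrix.mulVec, dotProduct, Fin.sum_univ_two]
    ring
  have hψvec : ∀ σ (v : Fin 2 → A) l,
      ψ ((ρ σ *ᵥ v) l) = r₀ σ l 0 * ψ (v 0) + r₀ σ l 1 * ψ (v 1) := fun σ v l => by
    simp only [Matrix.mulVec, dotProduct, Fin.sum_univ_two, map_add, hψmul]
  have hN : ∀ σ : GQ, N ≤ N.comap (DistribSMul.toAddMonoidHom (MVec ρ) σ) := by
    rintro σ _ ⟨v, hv, rfl⟩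
    refine ⟨ρ σ *ᵥ v, fun l => ?_, (hemb σ v).symm⟩
    rw [hψvec, hv 0, hv 1, mul_zero, mul_zero, add_zero]
  let π : MVec ρ →+ MVec ρ ⧸ N := QuotientAddGroup.mk' N
  letI act : DistribMulAction GQ (MVec ρ ⧸ N) :=
    { smul := fun σ => QuotientAddGroup.map N N (DistribSMul.toAddMonoidHom _ σ) (hN σ)
      one_smul := fun x => by
        obtain ⟨x, rfl⟩ := QuotientAddGroup.mk'_surjective N x
        exact congrArg π (one_smul GQ x)
      mul_smul := fun σ σ' x => by
        obtain ⟨x, rfl⟩ := QuotientAddGroup.mk'_surjective N x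
        exact congrArg π (mul_smul σ σ' x)
      smul_zero := fun σ => map_zero _
      smul_add := fun σ x y => map_add _ x y }
  have hπ : ∀ (σ : GQ) x, π (σ • x) = σ • π x := fun σ x => rfl
  have hsurj : Function.Surjective π := QuotientAddGroup.mk'_surjective N
  haveI : Finite (MVec ρ ⧸ N) := Finite.of_surjective π hsurj
  haveI := Fintype.ofFinite (MVec ρ ⧸ N)
  let O' := O.quotient π hsurj hπ
  have hkill₀ : ∀ v : MVec ρ, 2 • v = 0 := fun v => mvec_ext ρ fun l => by
    show 2 • (v l : A) = 0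
    rw [nsmul_eq_mul, CharP.cast_eq_zero, zero_mul]
  have hkill : ∀ x : MVec ρ ⧸ N, 2 • x = 0 := fun x => by
    obtain ⟨x, rfl⟩ := hsurj x
    rw [← map_nsmul, hkill₀, map_zero]
  -- connectedness
  have hu : IsUnit (ρ τ - 1).det := by
    refine isUnit_of_red_ne_zero red hred ?_
    rw [RingHom.map_det, map_sub, map_one]
    exact hne
  have hconn : conn O' = ⊤ := conn_eq_top O' hτ fun w => by
    obtain ⟨w, rfl⟩ := hsurj w
    have h1 : ∀ w' : Fin 2 → A,
        ρ τ *ᵥ ((ρ τ - 1)⁻¹ *ᵥ w') - (ρ τ - 1)⁻¹ *ᵥ w' = w' := fun w' => by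
      conv_lhs => arg 2; rw [← one_mulVec ((ρ τ - 1)⁻¹ *ᵥ w')]
      rw [← sub_mulVec, mulVec_mulVec, mul_nonsing_inv _ hu, one_mulVec]
    refine ⟨π (MVec.mk ρ ((ρ τ - 1)⁻¹ *ᵥ (w : Fin 2 → A))), ?_⟩
    rw [← hπ, ← map_sub]
    exact congrArg π (h1 w)
  -- points of the plane
  let ι : ZMod 2 →+* A := ZMod.castHom (dvd_refl 2) A
  set ev : (Fin 2 → ZMod 2) → MVec ρ ⧸ N := fun w => π (emb fun l => ι (w l) * s) with hev
  have hψι : ∀ c : ZMod 2, ψ (ι c * s) = c := fun c => by
    rcases zmod_two_cases c with rfl | rfl <;> simp [hψ, hs]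
  have hπemb : ∀ v : Fin 2 → A, π (emb v) = ev fun l => ψ (v l) := fun v => by
    refine (QuotientAddGroup.eq_iff_sub_mem).mpr ?_
    rw [← map_sub]
    exact ⟨_, fun l => by rw [Pi.sub_apply, map_sub, hψι, sub_self], rfl⟩
  have hev_smul : ∀ σ w, σ • ev w = ev fun l => r₀ σ l 0 * w 0 + r₀ σ l 1 * w 1 := fun σ w => by
    rw [hev]
    show σ • π (emb _) = _
    rw [← hπ, hemb, hπemb]
    exact congrArg ev (funext fun l => by rw [hψvec, hψι, hψι])
  have hev_add : ∀ w w', ev (w + w') = ev w + ev w' := fun w w' => by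
    simp only [hev, ← map_add]
    exact congrArg (fun v => π (emb v)) (funext fun l => by simp [add_mul])
  have hev_ne : ∀ w l, w l ≠ 0 → ev w ≠ 0 := fun w l hl h0 => by
    obtain ⟨v, hv, hvw⟩ := (QuotientAddGroup.eq_zero_iff _).mp h0
    have h1 : ε * (v l - ι (w l) * s) = 0 := by
      rw [mul_sub, sub_eq_zero]; exact congrArg (fun u : MVec ρ => u l) hvw
    have h2 : red (v l - ι (w l) * s) = 0 := by
      by_contra hne'
      exact hε ((isUnit_of_red_ne_zero red hred hne').mul_left_eq_zero.mp h1)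
    rw [map_sub, sub_eq_zero] at h2
    have h3 : ψ (v l) = ψ (ι (w l) * s) := by simp only [hψ, AddMonoidHom.comp_apply]; exact congrArg φ h2
    rw [hv l, hψι] at h3
    exact hl h3.symm
  -- the residual element of order three
  set ι' : ZMod 2 →+* k := ZMod.castHom (dvd_refl 2) k
  have hr₀map : ∀ σ, (r₀ σ).map ι' = (ρ σ).map red := fun σ => Matrix.ext fun l l' => by
    rcases hr σ l l' with e | e <;> simp [hr₀, e]
  have hdet : (r₀ τ).det ≠ 0 := fun h0 => by
    have h1 : ι' (r₀ τ).det = red (ρ τ).det := by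
      rw [RingHom.map_det, RingHom.map_det]; exact congrArg Matrix.det (hr₀map τ)
    rw [h0, map_zero] at h1
    have h2 := congrArg (fun M => red (Matrix.det M))
      (show ρ τ * ρ τ⁻¹ = 1 by rw [← map_mul, mul_inv_cancel, map_one])
    simp only [Matrix.det_mul, map_mul, ← h1, zero_mul, Matrix.det_one, map_one] at h2
    exact zero_ne_one h2
  have hdet' : (r₀ τ - 1).det ≠ 0 := fun h0 => by
    refine hne ?_
    rw [← hr₀map]
    have h1 := congrArg ι' h0
    rw [map_zero, RingHom.map_det, map_sub, map_one] at h1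
    exact h1
  obtain ⟨hc, h00, h10⟩ := order_three (r₀ τ 0 0) (r₀ τ 0 1) (r₀ τ 1 0) (r₀ τ 1 1)
    (by rwa [Matrix.det_fin_two] at hdet)
    (by rw [Matrix.det_fin_two] at hdet'; simpa [Matrix.one_apply] using hdet')
  set a := r₀ τ 0 0 with ha
  have hfix : ∀ w, ∀ σ ∈ tame 2, σ • ev w = ev w := fun w σ hσ => by
    rw [hev_smul]
    have h1 : r₀ σ = 1 := Matrix.map_injective ι'.injective (by
      show (r₀ σ).map ι' = (1 : M2 (ZMod 2)).map ι'
      rw [hr₀map, hβ σ hσ, Matrix.map_one _ (map_zero _) (map_one _)]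
      ext l l'
      by_cases e : l = l' <;> simp [Matrix.one_apply, e, hεm])
    rw [h1]
    congr 1
    funext l
    fin_cases l <;> simp [Matrix.one_apply]
  set g := ev ![1, 0] with hg
  have hτg : τ • g = ev ![a, 1] := by
    rw [hg, hev_smul]
    congr 1
    funext l
    fin_cases l
    · simp [ha]
    · simpa using hc
  have hττg : τ • τ • g = g + τ • g := by
    rw [hτg, hev_smul, hg, ← hev_add]
    congr 1
    funext l
    fin_cases l
    · simp only [← ha, Fin.zero_eta, Matrix.cons_val_zero, Matrix.cons_val_one, mul_one,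
        Pi.add_apply]
      rw [hc, mul_one] at h00
      rw [h00, add_comm]
    · simp only [hc, Fin.mk_one, Matrix.cons_val_zero, Matrix.cons_val_one, mul_one, one_mul,
        Pi.add_apply, zero_add]
      rw [hc] at h10
      simpa using h10
  have horbit : ∀ w : Fin 2 → ZMod 2, ¬ (w 0 = 0 ∧ w 1 = 0) →
      ev w = g ∨ ev w = τ • g ∨ ev w = g + τ • g := fun w hw => by
    rcases orbit_cases a (w 0) (w 1) hw with ⟨e0, e1⟩ | ⟨e0, e1⟩ | ⟨e0, e1⟩
    · refine Or.inl (congrArg ev ?_)
      funext l; fin_cases l <;> simp [e0, e1]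
    · refine Or.inr (Or.inl ?_)
      rw [hτg]
      congr 1
      funext l; fin_cases l <;> simp [e0, e1]
    · refine Or.inr (Or.inr ?_)
      rw [hτg, hg, ← hev_add]
      congr 1
      funext l; fin_cases l <;> simp [e0, e1]
  -- the character
  have hsub : ∀ (M N' : A), ε * M = ε * N' → ψ M = ψ N' := fun x y hxy => by
    have h2 : red (x - y) = 0 := by
      by_contra hne'
      exact hε ((isUnit_of_red_ne_zero red hred hne').mul_left_eq_zero.mp
        (by rw [mul_sub, hxy, sub_self]))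
    rw [map_sub, sub_eq_zero] at h2
    exact congrArg φ h2
  have hχ3 : HasDeep 2 (fun σ => ψ (β σ i j)) 3 := by
    refine IsTameHom.exists_unit_radical (H := fixM 2 (MVec ρ) ⊓ tame 2)
      ⟨(isLevel_fixM O).inf (isUnif_rad 2).level, inf_le_right, fun σ hσ σ' hσ' => ?_,
        fun σ hσ => ?_⟩ (isBdd_of_galOrder 2 O hkill₀)
    · rw [← map_add]
      refine hsub _ _ ?_
      have h1 := congrFun (congrFun (hβ (σ * σ') ((tame 2).mul_mem hσ hσ')) i) j
      rw [map_mul, hβ σ hσ, hβ σ' hσ', add_mul, one_mul, mul_add, mul_one,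
        Matrix.smul_mul, Matrix.mul_smul, smul_smul, hsoc ε hεm, zero_smul, add_zero] at h1
      simp only [Matrix.add_apply, Matrix.smul_apply, smul_eq_mul] at h1
      linear_combination -h1
    · refine (hsub _ 0 ?_).trans (map_zero ψ)
      have h1 := congrFun (congrFun (hβ σ hσ.2) i) j
      rw [eq_one_of_fixes ρ ((mem_fixM 2 (MVec ρ)).mp hσ.1).2] at h1
      simpa [Matrix.add_apply, Matrix.smul_apply, eq_comm] using h1
  set wn : Fin 2 → ZMod 2 := fun l => if l = i then 0 else 1 with hwn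
  set wh : Fin 2 → ZMod 2 := fun l => if l = i then 1 else 0 with hwh
  set P : MVec ρ ⧸ N := π (MVec.mk ρ fun l => if l = j then 1 else 0) with hP
  have hmove : ∀ σ ∈ tame 2, σ • P = P + ev fun l => ψ (β σ l j) := fun σ hσ => by
    rw [hP, ← hπ, ← hπemb, ← map_add]
    refine congrArg π (mvec_ext ρ fun l => ?_)
    rw [mvec_smul_apply, mvec_add_apply, hβ σ hσ]
    simp only [MVec.mk_apply, Matrix.add_apply, Matrix.smul_apply, smul_eq_mul]
    show _ = _ + ε * β σ l j
    fin_cases l <;> fin_cases j <;> simp [Matrix.one_apply]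
  have hcol : ∀ σ, (fun l => ψ (β σ l j)) = (if ψ (β σ i j) = 1 then wh else 0) ∨
      (fun l => ψ (β σ l j)) = (if ψ (β σ i j) = 1 then wh else 0) + wn := fun σ => by
    simpa only [hwh, hwn] using col_cases i fun l => ψ (β σ l j)
  have hh := horbit wh (by fin_cases i <;> simp [wh])
  have hhn : ev wh + ev wn = g ∨ ev wh + ev wn = τ • g ∨ ev wh + ev wn = g + τ • g := by
    rw [← hev_add]
    exact horbit (wh + wn) (by fin_cases i <;> simp [wh, wn])
  have hev0 : ev 0 = 0 := by
    have := hev_add 0 0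
    rwa [add_zero, left_eq_add] at this
  refine hasDeep_of_plane O' hkill hconn hχ3 (hev_ne ![1, 0] 0 (by simp)) hτ (hfix _)
    (fun σ hσ => by rw [hτg]; exact hfix _ σ hσ) hττg (n := ev wn) (h := ev wh) (P := P)
    (hfix wn) hh hhn (fun σ hσ hc0 => ?_) (fun σ hσ hc1 => ?_)
  · rw [hmove σ hσ]
    rcases hcol σ with e | e <;> rw [e, if_neg (by rw [show ψ (β σ i j) = 0 from hc0]; exact zero_ne_one)]
    · exact Or.inl (by rw [hev0, add_zero])
    · exact Or.inr (by rw [zero_add])
  · rw [hmove σ hσ]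
    rcases hcol σ with e | e <;> rw [e, if_pos (show ψ (β σ i j) = 1 from hc1)]
    · exact Or.inl rfl
    · exact Or.inr (by rw [hev_add, add_assoc])

/-- The socle class has radicals congruent to one at level five. -/
theorem hasDeep_socle (hred : Function.Surjective red) (hε : ε ≠ 0) (hεm : red ε = 0)
    (hsoc : ∀ x, red x = 0 → ε * x = 0) (O : GalOrder 2 (MVec ρ))
    (hr : ∀ σ i j, red (ρ σ i j) = 0 ∨ red (ρ σ i j) = 1) {τ : GQ} (hτ : τ ∈ inG 2)
    (hne : ((ρ τ).map red - 1).det ≠ 0) (β : GQ → M2 A)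
    (hβ : ∀ σ ∈ tame 2, ρ σ = 1 + ε • β σ) (ℓ : M2 k →+ ZMod 2) :
    HasDeep 2 (fun σ => ℓ ((β σ).map red)) 5 := by
  have hd : ∀ i j : Fin 2, HasDeep 2 (fun σ => ℓ (Matrix.single i j (red (β σ i j)))) 5 :=
    fun i j => hasDeep_socle_entry red hred hε hεm hsoc O hr hτ hne β hβ
      (ℓ.comp (Matrix.singleAddMonoidHom i j)) i j
  refine (((hd 0 0).add (by omega) (hd 0 1)).add (by omega)
    ((hd 1 0).add (by omega) (hd 1 1))).congr fun σ _ => ?_
  simp only [Pi.add_apply, ← map_add]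
  congr 1
  ext i j
  fin_cases i <;> fin_cases j <;> simp

end Fermat.Agent.Two.Flat
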