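import Fermat.Agent.Deform.Matrix
import Fermat.Agent.Two.Flat.Socle

/-!
# Consequences at two

The order on the points of a flat representation over a finite local ring, its transport to a
free quadratic extension of the coefficients, and the vanishing on tame inertia of invariant
characters with radicals congruent to one at level five.
-/

set_option autoImplicit false
set_option linter.style.haveILetI false
set_option linter.unusedSectionVars false

noncomputable section

namespace Fermat.Agent.Two.Flat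

open Fermat.Agent.Arith Fermat.Agent.FiniteFlat Fermat.Agent.CFT.Flat Fermat.Agent.Deform

/-- Flatness over a finite local ring gives an order on the points. -/
theorem nonempty_galOrder_of_isFlatAt {p : ℕ} [Fact p.Prime] {A : Type} [CommRing A]
    [IsLocalRing A] [Finite A] {ρ : GQ →* M2 A} (hρ : IsCont ρ)
    (hflat : (toRep ρ hρ).IsFlatAt p) : Nonempty (GalOrder p (MVec ρ)) := by
  haveI : Finite (A ⧸ (⊥ : Ideal A)) := Finite.of_surjective _ Ideal.Quotient.mk_surjective
  obtain ⟨H, i₁, i₂, hfin, -, -, e, hadd, hgal⟩ := hflat.2 ⊥ inferInstance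
  let V := (toRep ρ hρ).V
  letI act : DistribMulAction GQ (V ⧸ ((⊥ : Ideal A) • (⊤ : Submodule A V))) :=
    { smul := fun σ v => (toRep ρ hρ).levelAction ⊥ σ v
      one_smul := fun v => by
        obtain ⟨v, rfl⟩ := Submodule.Quotient.mk_surjective _ v
        show Submodule.Quotient.mk ((toRep ρ hρ).ρ 1 v) = Submodule.Quotient.mk v
        rw [map_one, Module.End.one_apply]
      mul_smul := fun σ τ v => by
        obtain ⟨v, rfl⟩ := Submodule.Quotient.mk_surjective _ v
        show Submodule.Quotient.mk ((toRep ρ hρ).ρ (σ * τ) v) =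
          Submodule.Quotient.mk ((toRep ρ hρ).ρ σ ((toRep ρ hρ).ρ τ v))
        rw [map_mul, Module.End.mul_apply]
      smul_zero := fun σ => map_zero ((toRep ρ hρ).levelAction ⊥ σ)
      smul_add := fun σ v w => map_add ((toRep ρ hρ).levelAction ⊥ σ) v w }
  obtain ⟨O⟩ := RT.Glue.nonempty_galOrder_of_hopf (l := p) e hadd
    fun σ f g h => hgal σ f g h
  let i : MVec ρ →+ (V ⧸ ((⊥ : Ideal A) • (⊤ : Submodule A V))) :=
    AddMonoidHom.mk' (fun v => Submodule.Quotient.mk (v : Fin 2 → A)) fun v w => rfl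
  refine ⟨O.restrict i (fun v w h => ?_) fun σ v => ?_⟩
  · have h0 : ∀ v' w' : V, (Submodule.Quotient.mk v' : V ⧸ ((⊥ : Ideal A) • (⊤ : Submodule A V))) =
        Submodule.Quotient.mk w' → v' = w' := fun v' w' h' => by
      have h1 := (Submodule.Quotient.eq _).mp h'
      rwa [Submodule.bot_smul, Submodule.mem_bot, sub_eq_zero] at h1
    exact h0 (v : Fin 2 → A) (w : Fin 2 → A) h
  · show Submodule.Quotient.mk ((σ • v : MVec ρ) : Fin 2 → A) =
      Submodule.Quotient.mk ((toRep ρ hρ).ρ σ (v : Fin 2 → A))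
    rfl

/-- An order on the points extends along a free quadratic extension of the coefficients. -/
theorem nonempty_galOrder_extend {p : ℕ} {A A' : Type} [CommRing A] [CommRing A'] [Finite A]
    (ι : A →+* A') (w : A') (hbij : Function.Bijective fun x : A × A => ι x.1 + w * ι x.2)
    {ρ : GQ →* M2 A} {ρ' : GQ →* M2 A'} (hρ : ∀ σ i j, ρ' σ i j = ι (ρ σ i j))
    (O : GalOrder p (MVec ρ)) : Nonempty (GalOrder p (MVec ρ')) := by
  let f : MVec ρ × MVec ρ →+ MVec ρ' :=
    AddMonoidHom.mk' (fun x => MVec.mk ρ' fun l => ι (x.1 l) + w * ι (x.2 l)) fun x y =>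
      mvec_ext ρ' fun l => by
        simp only [MVec.mk_apply, Prod.fst_add, Prod.snd_add, mvec_add_apply, map_add]
        ring
  have hf : Function.Bijective f := by
    refine ⟨fun x y h => ?_, fun v => ?_⟩
    · have h1 : ∀ l, (x.1 l, x.2 l) = (y.1 l, y.2 l) := fun l =>
        hbij.1 (congrArg (fun u : MVec ρ' => u l) h)
      exact Prod.ext (mvec_ext ρ fun l => congrArg Prod.fst (h1 l))
        (mvec_ext ρ fun l => congrArg Prod.snd (h1 l))
    · choose g hg using fun l => hbij.2 (v l)
      exact ⟨(MVec.mk ρ fun l => (g l).1, MVec.mk ρ fun l => (g l).2), mvec_ext ρ' hg⟩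
  have hfσ : ∀ (σ : GQ) x, f (σ • x) = σ • f x := fun σ x => mvec_ext ρ' fun l => by
    show ι ((σ • x.1 : MVec ρ) l) + w * ι ((σ • x.2 : MVec ρ) l) = _
    rw [mvec_smul_apply, mvec_smul_apply, mvec_smul_apply, map_add, map_add, map_mul, map_mul,
      map_mul, map_mul, hρ, hρ]
    show _ = _ * (ι (x.1 0) + w * ι (x.2 0)) + _ * (ι (x.1 1) + w * ι (x.2 1))
    ring
  let e := AddEquiv.ofBijective f hf
  refine ⟨(O.prod O).restrict e.symm.toAddMonoidHom e.symm.injective fun σ v => ?_⟩
  apply e.injective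
  show e (e.symm (σ • v)) = f (σ • e.symm v)
  rw [e.apply_symm_apply, hfσ]
  exact congrArg (σ • ·) (e.apply_symm_apply v).symm

/-- An invariant character with a radical congruent to one at level five is trivial on tame
inertia of level two. -/
theorem eq_zero_of_hasDeep_five {χ : GQ → ZMod 2}
    (hconj : ∀ τ ∈ inG 2, ∀ g ∈ tame 2, χ (τ⁻¹ * g * τ) = χ g) (h : HasDeep 2 χ 5) {g : GQ}
    (hg : g ∈ tame 2) : χ g = 0 := by
  obtain ⟨τ, hτ, hprim, -⟩ := exists_tame_generator 2
  obtain ⟨x, hx, hs, hs'⟩ := slot_map (p := 2) (inG_le_decG 2 hτ) (a := 1)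
    (by rw [ZMod.val_one, pow_one]; exact tame_zp hτ)
    (c := χ) (c' := χ) (fun g hg => by rw [one_mul, hconj τ hτ g hg]) (n := 5) (by omega)
    (by omega) (by omega) h
  rw [res_map_inG hτ hx, ← hs] at hs'
  have hz : slot 2 χ 5 = 0 := by
    by_contra hne
    have h1 : thetaBar 2 τ ^ 5 = 1 := by
      refine mul_right_cancel₀ hne ?_
      rw [one_mul, ← hs']
    have h2 := (isPrimitiveRoot_thetaBar (p := 2) hprim).dvd_of_pow_eq_one 5 h1
    rw [show e₀ 2 = 3 from rfl] at h2
    omega
  obtain ⟨α, hα, hle⟩ := h.succ (by omega) (by omega) (Or.inr hz)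
  exact hα.eq_zero_of_deep (by simpa using hle) hg
where
  tame_zp {τ : GQ} (_hτ : τ ∈ inG 2) : τ (zp 2) = zp 2 := by
    rw [(zp_spec 2).eq_neg_one_of_two_right, map_neg, map_one]

end Fermat.Agent.Two.Flat
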