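import Fermat.Agent.CFT.Flat.Lattice

/-!
# The Verschiebung on an order killed by two

For a Galois order at `2` on a group killed by `2`, the comultiplication of an element has
symmetric coefficients `c i j` in a basis `e i`, and `∑ c i i • e i` is again in the order.  Its
centred values have absolute value below `√(1/2)` and are additive up to errors below `1/2`.
-/

set_option autoImplicit false
set_option linter.style.haveILetI false
set_option linter.unusedSectionVars false

noncomputable section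

namespace Fermat.Agent.Two.Flat

open Fermat.Agent.Arith Fermat.Agent.FiniteFlat Fermat.Agent.CFT.Flat

theorem nrm_two : nrm 2 (2 : QBar) = 1 / 2 := by
  have h := nrm_natCast_self 2
  push_cast at h
  rw [h, one_div]

theorem nrm_sum_lt {ι : Type*} (s : Finset ι) (f : ι → QBar) {r : ℝ} (hr : 0 < r)
    (h : ∀ i ∈ s, nrm 2 (f i) < r) : nrm 2 (∑ i ∈ s, f i) < r :=
  Finset.sum_induction f (fun x => nrm 2 x < r) (fun _ _ ha hb => nrm_add_lt_of_lt 2 ha hb)
    (by rw [nrm_zero]; exact hr) h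

theorem nrm_mul_lt_half {x y : QBar} (hx : nrm 2 x ^ 2 < 1 / 2) (hy : nrm 2 y ^ 2 < 1 / 2) :
    nrm 2 (x * y) < 1 / 2 := by
  refine lt_of_pow_lt_pow_left₀ 2 (by norm_num) ?_
  rw [nrm_mul, mul_pow]
  calc nrm 2 x ^ 2 * nrm 2 y ^ 2 < 1 / 2 * (1 / 2) :=
        mul_lt_mul'' hx hy (sq_nonneg _) (sq_nonneg _)
    _ = (1 / 2) ^ 2 := by ring

theorem nrm_mul_three_le {a b c : QBar} {r : ℝ} (ha : nrm 2 a ≤ 1) (hb : nrm 2 b ≤ r)
    (hc : nrm 2 c ≤ r) (hr : 0 ≤ r) : nrm 2 (a * b * c) ≤ r ^ 2 := by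
  rw [nrm_mul, nrm_mul, sq]
  calc nrm 2 a * nrm 2 b * nrm 2 c ≤ 1 * r * r :=
        mul_le_mul (mul_le_mul ha hb (nrm_nonneg 2 _) zero_le_one) hc (nrm_nonneg 2 _)
          (mul_nonneg zero_le_one hr)
    _ = r * r := by rw [one_mul]

/-- A symmetric quadratic form is congruent to its diagonal modulo two. -/
theorem nrm_quad_sub_le {ι : Type*} [DecidableEq ι] (C : ι → ι → QBar)
    (hsym : ∀ i j, C i j = C j i) (hC : ∀ i j, nrm 2 (C i j) ≤ 1) (a : ι → QBar) {r : ℝ}
    (hr : 0 ≤ r) (ha : ∀ i, nrm 2 (a i) ≤ r) (s : Finset ι) :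
    nrm 2 ((∑ i ∈ s, ∑ j ∈ s, C i j * a i * a j) - ∑ i ∈ s, C i i * a i ^ 2) ≤
      1 / 2 * r ^ 2 := by
  induction s using Finset.induction with
  | empty => simpa using sq_nonneg r
  | insert x s hx ih =>
    have h2 : ∑ i ∈ s, C i x * a i * a x = ∑ j ∈ s, C x j * a x * a j :=
      Finset.sum_congr rfl fun i _ => by rw [hsym i x]; ring
    simp only [Finset.sum_insert hx, Finset.sum_add_distrib, h2]
    rw [show C x x * a x * a x + ∑ j ∈ s, C x j * a x * a j +
        (∑ j ∈ s, C x j * a x * a j + ∑ i ∈ s, ∑ j ∈ s, C i j * a i * a j) -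
        (C x x * a x ^ 2 + ∑ i ∈ s, C i i * a i ^ 2) =
      ((∑ i ∈ s, ∑ j ∈ s, C i j * a i * a j) - ∑ i ∈ s, C i i * a i ^ 2) +
        2 * ∑ j ∈ s, C x j * a x * a j by ring]
    refine nrm_add_le_of_le 2 ih ?_
    rw [nrm_mul, nrm_two]
    exact mul_le_mul_of_nonneg_left
      (nrm_sum_le 2 _ _ (sq_nonneg r) fun j _ => nrm_mul_three_le (hC x j) (ha x) (ha j) hr)
      (by norm_num)

theorem sum_comm_pairs {α β : Type*} [Fintype α] [Fintype β] (F : α → α → β → β → QBar) :
    ∑ i, ∑ j, ∑ u, ∑ w, F i j u w = ∑ u, ∑ w, ∑ i, ∑ j, F i j u w := by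
  calc ∑ i, ∑ j, ∑ u, ∑ w, F i j u w = ∑ i, ∑ u, ∑ j, ∑ w, F i j u w :=
        Finset.sum_congr rfl fun i _ => Finset.sum_comm
    _ = ∑ u, ∑ i, ∑ j, ∑ w, F i j u w := Finset.sum_comm
    _ = ∑ u, ∑ i, ∑ w, ∑ j, F i j u w :=
        Finset.sum_congr rfl fun u _ => Finset.sum_congr rfl fun i _ => Finset.sum_comm
    _ = ∑ u, ∑ w, ∑ i, ∑ j, F i j u w := Finset.sum_congr rfl fun u _ => Finset.sum_comm

variable {M : Type} [AddCommGroup M] [Fintype M] [DistribMulAction GQ M] (O : GalOrder 2 M)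

/-- The index type of the basis of an order. -/
abbrev Idx : Type := Module.Free.ChooseBasisIndex (Zl 2) O.H

/-- The value of a basis element. -/
def ev1 (i : Idx O) (x : M) : QBar := ((O.basis i : O.H) : M → QBar) x

/-- The centred value. -/
def dv (f : O.H) (x : M) : QBar := (f : M → QBar) x - (f : M → QBar) 0

theorem nonempty_idx : Nonempty (Idx O) := by
  by_contra hne
  rw [not_nonempty_iff] at hne
  have := O.card_basis
  rw [Nat.card_of_isEmpty] at this
  exact Nat.card_pos.ne this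

theorem apply_eq_sum (f : O.H) (x : M) :
    (f : M → QBar) x = ∑ i, ((O.basis.repr f i : ℚ) : QBar) * ev1 O i x := by
  conv_lhs => rw [← O.basis.sum_repr f]
  simp only [AddSubmonoidClass.coe_finsetSum, SetLike.val_smul, Finset.sum_apply, Pi.smul_apply,
    zl_smul, ev1]

theorem exists_coeff (f : O.H) : ∃ c : Idx O → Idx O → Zl 2, ∀ x y,
    (f : M → QBar) (x + y) = ∑ i, ∑ j, ((c i j : ℚ) : QBar) * ev1 O i x * ev1 O j y := by
  obtain ⟨n, a, b, ha, hb, h⟩ := O.comul _ f.2
  refine ⟨fun i j => ∑ t, O.basis.repr ⟨a t, ha t⟩ i * O.basis.repr ⟨b t, hb t⟩ j, fun x y => ?_⟩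
  rw [h]
  simp only [AddSubmonoidClass.coe_finsetSum, Subring.coe_mul, Rat.cast_sum, Rat.cast_mul,
    Finset.sum_mul]
  symm
  rw [Finset.sum_congr rfl fun i _ => Finset.sum_comm, Finset.sum_comm]
  refine Finset.sum_congr rfl fun t _ => ?_
  rw [show a t x = ((⟨a t, ha t⟩ : O.H) : M → QBar) x from rfl,
    show b t y = ((⟨b t, hb t⟩ : O.H) : M → QBar) y from rfl, apply_eq_sum, apply_eq_sum,
    Finset.sum_mul_sum]
  exact Finset.sum_congr rfl fun i _ => Finset.sum_congr rfl fun j _ => by ring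

/-- The coefficients of the comultiplication in the basis, as rationals integral at two. -/
def cz (f : O.H) (i j : Idx O) : Zl 2 := (exists_coeff O f).choose i j

/-- The coefficients of the comultiplication. -/
def co (f : O.H) (i j : Idx O) : QBar := ((cz O f i j : ℚ) : QBar)

theorem co_spec (f : O.H) (x y : M) :
    (f : M → QBar) (x + y) = ∑ i, ∑ j, co O f i j * ev1 O i x * ev1 O j y :=
  (exists_coeff O f).choose_spec x y

theorem nrm_co_le (f : O.H) (i j : Idx O) : nrm 2 (co O f i j) ≤ 1 := nrm_zl_le_one 2 _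

theorem map_co (σ : GQ) (f : O.H) (i j : Idx O) : σ (co O f i j) = co O f i j :=
  (congrArg σ (eq_ratCast (algebraMap ℚ QBar) _).symm).trans
    ((σ.commutes _).trans (eq_ratCast (algebraMap ℚ QBar) _))

theorem nrm_sq_sub_self_le (c : Zl 2) :
    nrm 2 (((c : ℚ) : QBar) ^ 2 - ((c : ℚ) : QBar)) ≤ 1 / 2 := by
  set x : QBar := ((c : ℚ) : QBar) with hx
  have hle : nrm 2 x ≤ 1 := nrm_zl_le_one 2 c
  have hle' : nrm 2 (x - 1) ≤ 1 := nrm_sub_le_of_le 2 hle (nrm_one 2).le
  rw [show x ^ 2 - x = x * (x - 1) by ring, nrm_mul]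
  have hfix : ∀ g ∈ inG 2, g x = x := fun g _ =>
    (congrArg g (eq_ratCast (algebraMap ℚ QBar) _).symm).trans
      ((g.commutes _).trans (eq_ratCast (algebraMap ℚ QBar) _))
  obtain ⟨d, hd, n, hn⟩ := exists_natCast_mul_eq 2 c
  -- `x = n / d` with `d` odd
  have hxd : x * (d : QBar) = (n : QBar) := by
    have h1 := congrArg (fun t : Zl 2 => ((t : ℚ) : QBar)) hn
    simpa [hx] using h1
  have hd1 : nrm 2 (d : QBar) = 1 := by
    refine nrm_natCast_eq_one 2 fun h2 => ?_
    obtain ⟨e, he⟩ := h2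
    obtain ⟨u, hu⟩ := hd.exists_left_inv
    have h1 := congrArg (fun t : Zl 2 => nrm 2 ((t : ℚ) : QBar)) hu
    simp only [he, Nat.cast_mul, Nat.cast_ofNat, Subring.coe_mul, Subring.coe_natCast,
      Rat.cast_mul, Rat.cast_natCast, OneMemClass.coe_one, Rat.cast_one, nrm_one, nrm_mul] at h1
    have h2' : ((((2 : Zl 2) : ℚ)) : QBar) = 2 := by
      have : ((2 : Zl 2) : ℚ) = 2 := rfl
      rw [this, Rat.cast_ofNat]
    rw [h2', nrm_two] at h1
    have h3 := mul_le_one₀ (nrm_zl_le_one 2 u) (nrm_nonneg 2 _) (nrm_natCast_le_one 2 e)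
    nlinarith [nrm_nonneg 2 ((u : ℚ) : QBar), nrm_nonneg 2 (e : QBar)]
  rcases Int.even_or_odd n with ⟨m, hm⟩ | ⟨m, hm⟩
  · have : nrm 2 x ≤ 1 / 2 := by
      have h1 := congrArg (nrm 2) hxd
      rw [nrm_mul, hd1, mul_one, hm, ← two_mul, Int.cast_mul, nrm_mul] at h1
      rw [h1]
      push_cast
      rw [nrm_two]
      exact mul_le_of_le_one_right (by norm_num) (nrm_intCast_le_one 2 m)
    exact (mul_le_mul this hle' (nrm_nonneg 2 _) (by norm_num)).trans (mul_one _).le
  · have : nrm 2 (x - 1) ≤ 1 / 2 := by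
      obtain ⟨e, he⟩ : ∃ e : ℤ, n - d = 2 * e := by
        have hdo : Odd d := by
          rw [← Nat.not_even_iff_odd]
          rintro ⟨e, he⟩
          rw [he, ← two_mul, Nat.cast_mul, nrm_mul, Nat.cast_ofNat, nrm_two] at hd1
          nlinarith [nrm_natCast_le_one 2 e]
        obtain ⟨e', he'⟩ := hdo
        exact ⟨m - e', by rw [hm, he']; push_cast; ring⟩
      have h1 : (x - 1) * (d : QBar) = 2 * (e : QBar) := by
        rw [sub_mul, one_mul, hxd]
        exact_mod_cast congrArg (fun t : ℤ => (t : QBar)) he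
      have h2 := congrArg (nrm 2) h1
      rw [nrm_mul, hd1, mul_one, nrm_mul, nrm_two] at h2
      rw [h2]
      exact mul_le_of_le_one_right (by norm_num) (nrm_intCast_le_one 2 e)
    exact (mul_le_mul hle this (nrm_nonneg 2 _) zero_le_one).trans (one_mul _).le

theorem nrm_co_sq_sub_le (f : O.H) (i j : Idx O) :
    nrm 2 (co O f i j ^ 2 - co O f i j) ≤ 1 / 2 :=
  nrm_sq_sub_self_le _

theorem coeff_unique (c : Idx O → QBar) (h : ∀ x, ∑ i, c i * ev1 O i x = 0) (i : Idx O) :
    c i = 0 :=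
  O.eq_zero_of_sum_mul_eq_zero Finset.univ (fun i => O.basis i) O.basis.linearIndependent c h i
    (Finset.mem_univ i)

theorem coeff_unique₂ (c : Idx O → Idx O → QBar)
    (h : ∀ x y, ∑ i, ∑ j, c i j * ev1 O i x * ev1 O j y = 0) (i j : Idx O) : c i j = 0 := by
  refine coeff_unique O (fun j => c i j) (fun y => ?_) j
  refine coeff_unique O (fun i => ∑ j, c i j * ev1 O j y) (fun x => ?_) i
  rw [← h x y]
  simp only [Finset.sum_mul]
  exact Finset.sum_congr rfl fun i _ => Finset.sum_congr rfl fun j _ => by ring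

theorem coeff_unique₄ (W : Idx O → Idx O → Idx O → Idx O → QBar)
    (h : ∀ x y u v, ∑ a, ∑ b, ∑ c, ∑ d,
      W a b c d * ev1 O a x * ev1 O b y * ev1 O c u * ev1 O d v = 0) (a b c d : Idx O) :
    W a b c d = 0 := by
  refine coeff_unique₂ O (W a b) (fun u v => ?_) c d
  refine coeff_unique₂ O (fun a b => ∑ c, ∑ d, W a b c d * ev1 O c u * ev1 O d v)
    (fun x y => ?_) a b
  rw [← h x y u v]
  simp only [Finset.sum_mul]
  refine Finset.sum_congr rfl fun a _ => Finset.sum_congr rfl fun b _ =>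
    Finset.sum_congr rfl fun c _ => Finset.sum_congr rfl fun d _ => by ring

theorem co_symm (f : O.H) (i j : Idx O) : co O f i j = co O f j i := by
  refine sub_eq_zero.mp (coeff_unique₂ O (fun i j => co O f i j - co O f j i) (fun x y => ?_) i j)
  simp only [sub_mul, Finset.sum_sub_distrib]
  rw [← co_spec, Finset.sum_comm, sub_eq_zero, add_comm, co_spec]
  exact Finset.sum_congr rfl fun i _ => Finset.sum_congr rfl fun j _ => by ring

/-- Iterated comultiplication. -/
theorem apply_add_add (f : O.H) (x y u v : M) :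
    (f : M → QBar) ((x + y) + (u + v)) = ∑ a, ∑ b, ∑ c, ∑ d,
      (∑ i, ∑ j, co O f i j * co O (O.basis i) a b * co O (O.basis j) c d) *
        ev1 O a x * ev1 O b y * ev1 O c u * ev1 O d v := by
  have h1 : ∀ (i : Idx O) (s t : M), ev1 O i (s + t) =
      ∑ P : Idx O × Idx O, co O (O.basis i) P.1 P.2 * ev1 O P.1 s * ev1 O P.2 t := fun i s t => by
    rw [Fintype.sum_prod_type]; exact co_spec O _ s t
  rw [co_spec]
  simp only [h1, Finset.mul_sum, Finset.sum_mul]
  rw [sum_comm_pairs]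
  have h2 : ∀ F : Idx O × Idx O → Idx O × Idx O → QBar,
      (∑ P, ∑ Q, F P Q) = ∑ a, ∑ b, ∑ c, ∑ d, F (a, b) (c, d) := fun F => by
    rw [Fintype.sum_prod_type]
    simp only [Fintype.sum_prod_type]
  rw [Finset.sum_comm, h2]
  refine Finset.sum_congr rfl fun a _ => Finset.sum_congr rfl fun b _ =>
    Finset.sum_congr rfl fun c _ => Finset.sum_congr rfl fun d _ =>
    Finset.sum_congr rfl fun i _ => Finset.sum_congr rfl fun j _ => by ring

/-- Coassociativity and cocommutativity. -/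
theorem co_assoc (f : O.H) (k m l n : Idx O) :
    ∑ i, ∑ j, co O f i j * co O (O.basis i) k m * co O (O.basis j) l n =
      ∑ i, ∑ j, co O f i j * co O (O.basis i) k l * co O (O.basis j) m n := by
  refine sub_eq_zero.mp (coeff_unique₄ O (fun k m l n =>
    (∑ i, ∑ j, co O f i j * co O (O.basis i) k m * co O (O.basis j) l n) -
      ∑ i, ∑ j, co O f i j * co O (O.basis i) k l * co O (O.basis j) m n) (fun x y u v => ?_) k m l n)
  have h1 := apply_add_add O f x y u v
  have h2 := apply_add_add O f x u y v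
  rw [show x + u + (y + v) = x + y + (u + v) by abel, h1] at h2
  simp only [sub_mul, Finset.sum_sub_distrib]
  rw [sub_eq_zero, h2]
  refine Finset.sum_congr rfl fun a _ => ?_
  rw [Finset.sum_comm]
  exact Finset.sum_congr rfl fun b _ => Finset.sum_congr rfl fun c _ =>
    Finset.sum_congr rfl fun d _ => by ring

/-- The Verschiebung of an element. -/
def ver (f : O.H) : O.H := ∑ i, cz O f i i • O.basis i

theorem ver_apply (f : O.H) (x : M) :
    (ver O f : M → QBar) x = ∑ i, co O f i i * ev1 O i x := by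
  simp only [ver, AddSubmonoidClass.coe_finsetSum, SetLike.val_smul, Finset.sum_apply,
    Pi.smul_apply, zl_smul, co, ev1]

theorem dv_ver (f : O.H) (x : M) :
    dv O (ver O f) x = ∑ i, co O f i i * dv O (O.basis i) x := by
  rw [dv, ver_apply, ver_apply, ← Finset.sum_sub_distrib]
  simp only [dv, ev1, mul_sub]

/-- The second difference of a function with given expansion of its translates. -/
theorem dv_add (g : O.H) (A : Idx O → Idx O → QBar)
    (h : ∀ x y, (g : M → QBar) (x + y) = ∑ i, ∑ j, A i j * ev1 O i x * ev1 O j y) (x y : M) :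
    dv O g (x + y) - dv O g x - dv O g y =
      ∑ i, ∑ j, A i j * dv O (O.basis i) x * dv O (O.basis j) y := by
  have e1 := h x y
  have e2 := h x 0
  have e3 := h 0 y
  have e4 := h 0 0
  rw [add_zero] at e2 e4
  rw [zero_add] at e3
  simp only [dv, e1, e2, e3]
  rw [e4]
  simp only [← Finset.sum_sub_distrib]
  refine Finset.sum_congr rfl fun i _ => Finset.sum_congr rfl fun j _ => ?_
  simp only [ev1]
  ring

theorem dv_map {σ : GQ} (f : O.H) (x : M) : dv O f (σ • x) = σ (dv O f x) := by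
  rw [dv, dv, map_sub, O.equivariant _ f.2]
  congr 1
  rw [← O.equivariant _ f.2, smul_zero]

theorem dv_zero (f : O.H) : dv O f 0 = 0 := sub_self _

theorem nrm_dv_lt_one (hconn : conn O = ⊤) (f : O.H) (x : M) : nrm 2 (dv O f x) < 1 :=
  mem_conn.mp (hconn ▸ AddSubgroup.mem_top x : x ∈ conn O) _ f.2

theorem exists_bound (hconn : conn O = ⊤) (x : M) :
    ∃ r : ℝ, 0 ≤ r ∧ r < 1 ∧ ∀ i, nrm 2 (dv O (O.basis i) x) ≤ r := by
  haveI := nonempty_idx O
  obtain ⟨j, hj⟩ := Finite.exists_max fun i => nrm 2 (dv O (O.basis i) x)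
  exact ⟨_, nrm_nonneg 2 _, nrm_dv_lt_one O hconn _ x, hj⟩

/-- The doubling relation. -/
theorem two_mul_dv (hkill : ∀ m : M, 2 • m = 0) (f : O.H) (x : M) :
    ∑ i, ∑ j, co O f i j * dv O (O.basis i) x * dv O (O.basis j) x = -(2 * dv O f x) := by
  rw [← dv_add O f _ (co_spec O f) x x, ← two_nsmul, hkill, dv_zero]
  ring

/-- The square of the Verschiebung. -/
theorem nrm_ver_sq_add_le (hkill : ∀ m : M, 2 • m = 0) (f : O.H) {x : M} {r : ℝ} (hr : 0 ≤ r)
    (h : ∀ i, nrm 2 (dv O (O.basis i) x) ≤ r) :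
    nrm 2 (dv O (ver O f) x ^ 2 + 2 * dv O f x) ≤ 1 / 2 * r ^ 2 := by
  classical
  have h1 := nrm_quad_sub_le (co O f) (co_symm O f) (nrm_co_le O f)
    (fun i => dv O (O.basis i) x) hr h Finset.univ
  have h2 := nrm_quad_sub_le (fun i j => co O f i i * co O f j j) (fun i j => mul_comm _ _)
    (fun i j => by
      rw [nrm_mul]; exact mul_le_one₀ (nrm_co_le O f i i) (nrm_nonneg 2 _) (nrm_co_le O f j j))
    (fun i => dv O (O.basis i) x) hr h Finset.univ
  rw [two_mul_dv O hkill] at h1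
  have hsq : dv O (ver O f) x ^ 2 = ∑ i, ∑ j,
      co O f i i * co O f j j * dv O (O.basis i) x * dv O (O.basis j) x := by
    rw [dv_ver, sq, Finset.sum_mul_sum]
    exact Finset.sum_congr rfl fun i _ => Finset.sum_congr rfl fun j _ => by ring
  rw [← hsq] at h2
  have h3 : nrm 2 (∑ i, (co O f i i ^ 2 - co O f i i) * dv O (O.basis i) x ^ 2) ≤
      1 / 2 * r ^ 2 := by
    refine nrm_sum_le 2 _ _ (by positivity) fun i _ => ?_
    rw [nrm_mul, nrm_pow]
    exact mul_le_mul (nrm_co_sq_sub_le O f i i) (pow_le_pow_left₀ (nrm_nonneg 2 _) (h i) 2)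
      (pow_nonneg (nrm_nonneg 2 _) 2) (by norm_num)
  have key : dv O (ver O f) x ^ 2 + 2 * dv O f x =
      ((dv O (ver O f) x ^ 2 - ∑ i, co O f i i * co O f i i * dv O (O.basis i) x ^ 2) +
        ∑ i, (co O f i i ^ 2 - co O f i i) * dv O (O.basis i) x ^ 2) -
      (-(2 * dv O f x) - ∑ i, co O f i i * dv O (O.basis i) x ^ 2) := by
    simp only [sub_mul, Finset.sum_sub_distrib, sq]
    ring
  rw [key]
  exact nrm_sub_le_of_le 2 (nrm_add_le_of_le 2 h2 h3) h1

/-- The Verschiebung is small. -/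
theorem nrm_ver_sq_lt (hkill : ∀ m : M, 2 • m = 0) (hconn : conn O = ⊤) (f : O.H) (x : M) :
    nrm 2 (dv O (ver O f) x) ^ 2 < 1 / 2 := by
  obtain ⟨r, hr0, hr1, hr⟩ := exists_bound O hconn x
  have h1 := nrm_ver_sq_add_le O hkill f hr0 hr
  have h2 := nrm_dv_lt_one O hconn f x
  have h3 : nrm 2 (2 * dv O f x) < 1 / 2 := by
    rw [nrm_mul, nrm_two]; linarith
  have h4 : nrm 2 (dv O (ver O f) x ^ 2 + 2 * dv O f x) < 1 / 2 := by
    have : r ^ 2 < 1 := pow_lt_one₀ hr0 hr1 two_ne_zero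
    linarith
  have h5 := nrm_sub_lt_of_lt 2 h4 h3
  rwa [add_sub_cancel_right, nrm_pow] at h5

/-- The coefficients of the translates of the Verschiebung, modulo two. -/
theorem nrm_ver_co_sub_le (f : O.H) (k l : Idx O) :
    nrm 2 ((∑ i, co O f i i * co O (O.basis i) k l) -
      ∑ i, ∑ j, co O f i j * co O (O.basis i) k k * co O (O.basis j) l l) ≤ 1 / 2 := by
  classical
  rw [co_assoc O f k k l l]
  have h1 := nrm_quad_sub_le (co O f) (co_symm O f) (nrm_co_le O f)
    (fun i => co O (O.basis i) k l) zero_le_one (fun i => nrm_co_le O _ k l) Finset.univ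
  rw [one_pow, mul_one] at h1
  have h2 : nrm 2 (∑ i, co O f i i * (co O (O.basis i) k l ^ 2 - co O (O.basis i) k l)) ≤
      1 / 2 := by
    refine nrm_sum_le 2 _ _ (by norm_num) fun i _ => ?_
    rw [nrm_mul]
    exact (mul_le_of_le_one_left (nrm_nonneg 2 _) (nrm_co_le O f i i)).trans
      (nrm_co_sq_sub_le O _ k l)
  rw [show (∑ i, co O f i i * co O (O.basis i) k l) -
      ∑ i, ∑ j, co O f i j * co O (O.basis i) k l * co O (O.basis j) k l =
    -(((∑ i, ∑ j, co O f i j * co O (O.basis i) k l * co O (O.basis j) k l) -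
        ∑ i, co O f i i * co O (O.basis i) k l ^ 2) +
      ∑ i, co O f i i * (co O (O.basis i) k l ^ 2 - co O (O.basis i) k l)) by
    simp only [mul_sub, Finset.sum_sub_distrib]; ring, nrm_neg]
  exact nrm_add_le_of_le 2 h1 h2

/-- The Verschiebung is additive modulo two. -/
theorem nrm_ver_add_lt (hkill : ∀ m : M, 2 • m = 0) (hconn : conn O = ⊤) (f : O.H) (x y : M) :
    nrm 2 (dv O (ver O f) (x + y) - dv O (ver O f) x - dv O (ver O f) y) < 1 / 2 := by
  have hA : ∀ s t, (ver O f : M → QBar) (s + t) =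
      ∑ k, ∑ l, (∑ i, co O f i i * co O (O.basis i) k l) * ev1 O k s * ev1 O l t := fun s t => by
    have hi : ∀ i, ev1 O i (s + t) = ∑ P : Idx O × Idx O,
        co O (O.basis i) P.1 P.2 * ev1 O P.1 s * ev1 O P.2 t := fun i => by
      rw [Fintype.sum_prod_type]; exact co_spec O _ s t
    rw [ver_apply]
    simp only [hi, Finset.mul_sum]
    rw [Finset.sum_comm, Fintype.sum_prod_type]
    refine Finset.sum_congr rfl fun k _ => Finset.sum_congr rfl fun l _ => ?_
    simp only [Finset.sum_mul]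
    exact Finset.sum_congr rfl fun i _ => by ring
  rw [dv_add O (ver O f) _ hA]
  set B : Idx O → Idx O → QBar := fun k l =>
    ∑ i, ∑ j, co O f i j * co O (O.basis i) k k * co O (O.basis j) l l with hB
  have hmain : ∑ k, ∑ l, B k l * dv O (O.basis k) x * dv O (O.basis l) y =
      ∑ i, ∑ j, co O f i j * dv O (ver O (O.basis i)) x * dv O (ver O (O.basis j)) y := by
    simp only [hB, dv_ver, Finset.mul_sum, Finset.sum_mul]
    rw [sum_comm_pairs]
    refine Finset.sum_congr rfl fun i _ => Finset.sum_congr rfl fun j _ => ?_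
    rw [Finset.sum_comm]
    exact Finset.sum_congr rfl fun k _ => Finset.sum_congr rfl fun l _ => by ring
  rw [show (∑ k, ∑ l, (∑ i, co O f i i * co O (O.basis i) k l) * dv O (O.basis k) x *
      dv O (O.basis l) y) =
    (∑ k, ∑ l, ((∑ i, co O f i i * co O (O.basis i) k l) - B k l) * dv O (O.basis k) x *
      dv O (O.basis l) y) + ∑ k, ∑ l, B k l * dv O (O.basis k) x * dv O (O.basis l) y by
    simp only [sub_mul, Finset.sum_sub_distrib]; ring, hmain]
  refine nrm_add_lt_of_lt 2 (nrm_sum_lt _ _ (by norm_num) fun k _ =>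
    nrm_sum_lt _ _ (by norm_num) fun l _ => ?_)
    (nrm_sum_lt _ _ (by norm_num) fun i _ => nrm_sum_lt _ _ (by norm_num) fun j _ => ?_)
  · rw [nrm_mul, nrm_mul]
    have hk := nrm_dv_lt_one O hconn (O.basis k) x
    have hl := nrm_dv_lt_one O hconn (O.basis l) y
    calc _ ≤ 1 / 2 * nrm 2 (dv O (O.basis k) x) * nrm 2 (dv O (O.basis l) y) :=
          mul_le_mul_of_nonneg_right (mul_le_mul_of_nonneg_right (nrm_ver_co_sub_le O f k l)
            (nrm_nonneg 2 _)) (nrm_nonneg 2 _)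
      _ < 1 / 2 := by
          rw [mul_assoc]
          exact mul_lt_of_lt_one_right (by norm_num)
            (mul_lt_one_of_nonneg_of_lt_one_left (nrm_nonneg 2 _) hk hl.le)
  · rw [mul_assoc, nrm_mul]
    exact (mul_le_of_le_one_left (nrm_nonneg 2 _) (nrm_co_le O f i j)).trans_lt
      (nrm_mul_lt_half (nrm_ver_sq_lt O hkill hconn _ x) (nrm_ver_sq_lt O hkill hconn _ y))

end Fermat.Agent.Two.Flat
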