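import Fermat.Agent.CFT.Flat.Slots
import Fermat.Agent.Two.Flat.Verschiebung

/-!
# Connected orders on a simple plane at two

If three points `g`, `τ g`, `g + τ g` of a connected Galois order at `2` are fixed by tame inertia
and permuted by `τ` in inertia, then some element of the order takes values of absolute value
`2^{-1/3}` on them, and its Verschiebung values of absolute value `2^{-2/3}`.
-/

set_option autoImplicit false
set_option linter.style.haveILetI false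
set_option linter.unusedSectionVars false

noncomputable section

namespace Fermat.Agent.Two.Flat

open Fermat.Agent.Arith Fermat.Agent.FiniteFlat Fermat.Agent.CFT.Flat

/-- The absolute value of the tame uniformiser at two. -/
abbrev qr : ℝ := nrm 2 (rad 2)

theorem qr_pos : 0 < qr := (isUnif_rad 2).pos

theorem qr_lt_one : qr < 1 := (isUnif_rad 2).lt_one

theorem qr_cube : qr ^ 3 = 1 / 2 := by
  have h := nrm_rad_pow 2
  rw [show e₀ 2 = 3 from rfl] at h
  push_cast at h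
  rw [one_div]
  exact h

theorem qr_pow_lt {a b : ℕ} (h : a < b) : qr ^ b < qr ^ a :=
  pow_lt_pow_right_of_lt_one₀ qr_pos qr_lt_one h

theorem qr_pow_le {a b : ℕ} (h : a ≤ b) : qr ^ b ≤ qr ^ a :=
  pow_le_pow_of_le_one qr_pos.le qr_lt_one.le h

theorem qr_pow_lt_half {b : ℕ} (h : 3 < b) : qr ^ b < 1 / 2 :=
  (qr_pow_lt h).trans_eq qr_cube

/-- An element fixed by tame inertia of level two is its leading coefficient up to level three. -/
theorem exists_lead {x : QBar} (hfix : ∀ g ∈ tame 2, g x = x) (hx : nrm 2 x ≤ qr ^ 2) :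
    ∃ a : QBar, (∀ g ∈ inG 2, g a = a) ∧ nrm 2 a ≤ 1 ∧
      nrm 2 (x - a * rad 2 ^ 2) ≤ qr ^ 3 := by
  rcases hx.lt_or_eq with hlt | heq
  · exact ⟨0, fun g _ => map_zero g, by simp, by
      rw [zero_mul, sub_zero]; exact (isUnif_rad 2).nrm_le_of_lt hfix hlt⟩
  have hw : nrm 2 (x / rad 2 ^ 2) = 1 := by
    rw [nrm_div, nrm_pow, heq, div_self (pow_ne_zero 2 qr_pos.ne')]
  obtain ⟨ζ, m, hm, hpm, hζ, hlt⟩ := exists_rootOfUnity 2 hw
  have hζfix : ∀ g ∈ inG 2, g ζ = ζ := fun g hg => inG_fix_root 2 hg hζ hpm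
  refine ⟨ζ, hζfix, (nrm_root 2 hm hζ).le, (isUnif_rad 2).nrm_le_of_lt (fun g hg => ?_) ?_⟩
  · obtain ⟨hgI, hgr⟩ := (mem_tame 2).mp hg
    rw [map_sub, map_mul, map_pow, hgr, hζfix g hgI, hfix g hg]
  · rw [show x - ζ * rad 2 ^ 2 = rad 2 ^ 2 * (x / rad 2 ^ 2 - ζ) by
      rw [mul_sub, mul_div_cancel₀ _ (pow_ne_zero 2 (rad_ne_zero 2))]; ring, nrm_mul, nrm_pow]
    exact mul_lt_of_lt_one_right (pow_pos qr_pos 2) hlt

variable {M : Type} [AddCommGroup M] [Fintype M] [DistribMulAction GQ M] (O : GalOrder 2 M)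

theorem dv_fixed {x : M} (hx : ∀ σ ∈ tame 2, σ • x = x) (f : O.H) :
    ∀ σ ∈ tame 2, σ (dv O f x) = dv O f x := fun σ hσ => by
  rw [← dv_map, hx σ hσ]

theorem nrm_dv_le_qr (hconn : conn O = ⊤) {x : M} (hx : ∀ σ ∈ tame 2, σ • x = x) (f : O.H) :
    nrm 2 (dv O f x) ≤ qr := by
  have := (isUnif_rad 2).nrm_le_of_lt (k := 0) (dv_fixed O hx f)
    (by rw [pow_zero]; exact nrm_dv_lt_one O hconn f x)
  rwa [zero_add, pow_one] at this

/-- Values at level two are in fact at level three. -/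
theorem nrm_dv_le_cube (hkill : ∀ m : M, 2 • m = 0) {g : M} (hg : ∀ σ ∈ tame 2, σ • g = g)
    (h2 : ∀ f : O.H, nrm 2 (dv O f g) ≤ qr ^ 2) (f : O.H) : nrm 2 (dv O f g) ≤ qr ^ 3 := by
  choose a hafix hale ha using fun i =>
    exists_lead (dv_fixed O hg (O.basis i)) (h2 (O.basis i))
  set u : Idx O → QBar := fun i => a i * rad 2 ^ 2 with hu
  set w : Idx O → QBar := fun i => dv O (O.basis i) g - u i with hw
  set S := ∑ i, ∑ j, co O f i j * a i * a j with hS
  have hule : ∀ i, nrm 2 (u i) ≤ qr ^ 2 := fun i => by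
    simp only [hu, nrm_mul, nrm_pow]
    exact mul_le_of_le_one_left (pow_nonneg qr_pos.le 2) (hale i)
  have hexp := two_mul_dv O hkill f g
  have hsplit : ∑ i, ∑ j, co O f i j * dv O (O.basis i) g * dv O (O.basis j) g =
      rad 2 ^ 4 * S + 2 * (∑ i, ∑ j, co O f i j * u i * w j) +
        ∑ i, ∑ j, co O f i j * w i * w j := by
    have hsw : ∑ i, ∑ j, co O f i j * w i * u j = ∑ i, ∑ j, co O f i j * u i * w j := by
      rw [Finset.sum_comm]
      exact Finset.sum_congr rfl fun i _ => Finset.sum_congr rfl fun j _ => by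
        rw [co_symm O f j i]; ring
    rw [two_mul (∑ i, ∑ j, co O f i j * u i * w j)]
    nth_rewrite 2 [← hsw]
    simp only [hS, Finset.mul_sum, ← Finset.sum_add_distrib]
    refine Finset.sum_congr rfl fun i _ => Finset.sum_congr rfl fun j _ => ?_
    simp only [hw, hu]
    ring
  have hT : nrm 2 (rad 2 ^ 4 * S + 2 * dv O f g) ≤ qr ^ 6 := by
    rw [show rad 2 ^ 4 * S + 2 * dv O f g =
      -(2 * (∑ i, ∑ j, co O f i j * u i * w j) + ∑ i, ∑ j, co O f i j * w i * w j) by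
      linear_combination (hsplit.symm.trans hexp), nrm_neg]
    refine nrm_add_le_of_le 2 ?_ ?_
    · rw [nrm_mul, nrm_two, ← qr_cube]
      refine (mul_le_mul_of_nonneg_left ?_ (pow_nonneg qr_pos.le 3)).trans_eq
        (pow_add qr 3 3).symm
      refine nrm_sum_le 2 _ _ (pow_nonneg qr_pos.le 3) fun i _ =>
        nrm_sum_le 2 _ _ (pow_nonneg qr_pos.le 3) fun j _ => ?_
      rw [nrm_mul, nrm_mul]
      calc _ ≤ 1 * 1 * qr ^ 3 :=
            mul_le_mul (mul_le_mul (nrm_co_le O f i j)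
              ((hule i).trans (pow_le_one₀ qr_pos.le qr_lt_one.le)) (nrm_nonneg 2 _) zero_le_one)
              (ha j) (nrm_nonneg 2 _) (by norm_num)
        _ = qr ^ 3 := by ring
    · refine nrm_sum_le 2 _ _ (pow_nonneg qr_pos.le 6) fun i _ =>
        nrm_sum_le 2 _ _ (pow_nonneg qr_pos.le 6) fun j _ => ?_
      rw [show qr ^ 6 = (qr ^ 3) ^ 2 by ring]
      exact nrm_mul_three_le (nrm_co_le O f i j) (ha i) (ha j) (pow_nonneg qr_pos.le 3)
  have hSfix : ∀ σ ∈ inG 2, σ S = S := fun σ hσ => by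
    simp only [hS, map_sum, map_mul, map_co, hafix _ σ hσ]
  have h2f : nrm 2 (2 * dv O f g) ≤ qr ^ 5 := by
    rw [nrm_mul, nrm_two, ← qr_cube]
    exact (mul_le_mul_of_nonneg_left (h2 f) (pow_nonneg qr_pos.le 3)).trans_eq (pow_add qr 3 2).symm
  have hr4 : nrm 2 (rad 2 ^ 4 * S) = qr ^ 4 * nrm 2 S := by rw [nrm_mul, nrm_pow]
  have hSlt : nrm 2 S < 1 := by
    have h5 := nrm_sub_le_of_le 2 (hT.trans (qr_pow_le (by omega : 5 ≤ 6))) h2f
    rw [add_sub_cancel_right, hr4] at h5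
    by_contra hge
    exact absurd ((le_mul_of_one_le_right (pow_nonneg qr_pos.le 4) (not_lt.mp hge)).trans h5)
      (not_le.mpr (qr_pow_lt (by omega)))
  have hS3 : nrm 2 S ≤ qr ^ 3 := by
    rw [qr_cube]
    refine (nrm_le_inv_of_fixed hSfix hSlt).trans_eq ?_
    push_cast
    rw [one_div]
  have h6 : nrm 2 (2 * dv O f g) ≤ qr ^ 6 := by
    have := nrm_sub_le_of_le 2 hT (show nrm 2 (rad 2 ^ 4 * S) ≤ qr ^ 6 by
      rw [hr4]
      exact (mul_le_mul_of_nonneg_left hS3 (pow_nonneg qr_pos.le 4)).trans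
        ((pow_add qr 4 3).symm.trans_le (qr_pow_le (by omega))))
    rwa [add_sub_cancel_left] at this
  rw [nrm_mul, nrm_two, ← qr_cube, pow_add qr 3 3] at h6
  exact le_of_mul_le_mul_left h6 (pow_pos qr_pos 3)

/-- Values on a plane permuted by inertia. -/
theorem exists_qr_value (hkill : ∀ m : M, 2 • m = 0) (hconn : conn O = ⊤) {g : M} (hg0 : g ≠ 0)
    {τ : GQ} (hτ : τ ∈ inG 2) (hg : ∀ σ ∈ tame 2, σ • g = g)
    (hg' : ∀ σ ∈ tame 2, σ • τ • g = τ • g) (hrel : τ • τ • g = g + τ • g) :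
    ∃ f : O.H, ∀ x : M, x = g ∨ x = τ • g ∨ x = g + τ • g →
      nrm 2 (dv O (ver O f) x) = qr ^ 2 := by
  obtain ⟨f, hf⟩ : ∃ f : O.H, nrm 2 (dv O f g) = qr := by
    by_contra! hne
    have h2 : ∀ f : O.H, nrm 2 (dv O f g) ≤ qr ^ 2 := fun f =>
      (isUnif_rad 2).nrm_le_of_lt (k := 1) (dv_fixed O hg f)
        (by rw [pow_one]; exact lt_of_le_of_ne (nrm_dv_le_qr O hconn hg f) (hne f))
    have h3 := nrm_dv_le_cube O hkill hg h2
    have h3' : ∀ f : O.H, nrm 2 (dv O f (τ • g)) ≤ qr ^ 3 := fun f => by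
      rw [dv_map, nrm_map_of_mem_inG 2 hτ]; exact h3 f
    -- inertia moves values at level three by at most level four
    have hstep : ∀ (f : O.H) (x : M), (∀ σ ∈ tame 2, σ • x = x) →
        (∀ σ ∈ tame 2, σ • τ • x = τ • x) → nrm 2 (dv O f x) ≤ qr ^ 3 →
        nrm 2 (dv O f (τ • x) - dv O f x) ≤ qr ^ 4 := by
      intro f x hx hx' hle
      refine (isUnif_rad 2).nrm_le_of_lt (k := 3)
        (fun σ hσ => by rw [map_sub, dv_fixed O hx' f σ hσ, dv_fixed O hx f σ hσ]) ?_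
      have hy : nrm 2 (dv O f x / 2) ≤ 1 := by
        rw [nrm_div, nrm_two, div_le_one (by norm_num)]
        exact hle.trans_eq qr_cube
      have h := nrm_sub_lt_one_of_mem_inG 2 hτ hy
      rw [map_div₀, map_ofNat, ← sub_div, nrm_div, nrm_two, div_lt_one (by norm_num)] at h
      rw [dv_map]
      exact h.trans_eq qr_cube.symm
    refine hg0 (eq_of_near (O := O) hkill (y := qr ^ 4) ?_ fun f hf => ?_)
    · simp only [Nat.add_one_sub_one, pow_one]
      refine (qr_pow_lt_half (by omega)).trans_eq ?_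
      push_cast
      rw [one_div]
    · set F : O.H := ⟨f, hf⟩
      show nrm 2 (dv O F g) ≤ qr ^ 4
      have hg'' : ∀ σ ∈ tame 2, σ • τ • τ • g = τ • τ • g := fun σ hσ => by
        rw [hrel, smul_add, hg σ hσ, hg' σ hσ]
      have e1 := hstep F (τ • g) hg' hg'' (h3' F)
      have e3 : nrm 2 (dv O F (g + τ • g) - dv O F g - dv O F (τ • g)) ≤ qr ^ 4 := by
        rw [dv_add O F _ (co_spec O F)]
        refine nrm_sum_le 2 _ _ (pow_nonneg qr_pos.le 4) fun i _ =>
          nrm_sum_le 2 _ _ (pow_nonneg qr_pos.le 4) fun j _ => ?_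
        refine le_trans ?_ (qr_pow_le (by omega : 4 ≤ 6))
        rw [show qr ^ 6 = (qr ^ 3) ^ 2 by ring]
        exact nrm_mul_three_le (nrm_co_le O F i j) (h3 _) (h3' _) (pow_nonneg qr_pos.le 3)
      rw [hrel] at e1
      have e4 := nrm_sub_le_of_le 2 e1 e3
      rwa [show dv O F (g + τ • g) - dv O F (τ • g) -
        (dv O F (g + τ • g) - dv O F g - dv O F (τ • g)) = dv O F g by ring] at e4
  refine ⟨f, fun x hx => ?_⟩
  have hxfix : ∀ σ ∈ tame 2, σ • x = x := by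
    rcases hx with rfl | rfl | rfl
    · exact hg
    · exact hg'
    · intro σ hσ; rw [smul_add, hg σ hσ, hg' σ hσ]
  have hxf : nrm 2 (dv O f x) = qr := by
    rcases hx with rfl | rfl | rfl
    · exact hf
    · rw [dv_map, nrm_map_of_mem_inG 2 hτ, hf]
    · rw [← hrel, dv_map, nrm_map_of_mem_inG 2 hτ, dv_map, nrm_map_of_mem_inG 2 hτ, hf]
  have h1 := nrm_ver_sq_add_le O hkill f qr_pos.le fun i => nrm_dv_le_qr O hconn hxfix (O.basis i)
  rw [← qr_cube, ← pow_add] at h1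
  have h2 : nrm 2 (-(2 * dv O f x)) = qr ^ 4 := by
    rw [nrm_neg, nrm_mul, nrm_two, hxf, ← qr_cube, ← pow_succ]
  have h3 : nrm 2 (dv O (ver O f) x ^ 2) = qr ^ 4 := by
    rw [show dv O (ver O f) x ^ 2 = -(2 * dv O f x) + (dv O (ver O f) x ^ 2 + 2 * dv O f x) by ring,
      nrm_add_eq_of_lt 2 (by rw [h2]; exact h1.trans_lt (qr_pow_lt (by omega))), h2]
  rw [nrm_pow, show qr ^ 4 = (qr ^ 2) ^ 2 by ring] at h3
  exact (pow_left_inj₀ (nrm_nonneg 2 _) (pow_nonneg qr_pos.le 2) two_ne_zero).mp h3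

end Fermat.Agent.Two.Flat
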