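import Fermat.Agent.Two.Flat.AtTwo
import Fermat.Agent.Two.Tangent.Basic

/-!
# Deep additive functions are unramified at two

A function with values in a group killed by two, additive on inertia at `2`, all of whose
functionals have radicals congruent to one at level five, vanishes on inertia at `2`.
-/

set_option autoImplicit false
set_option linter.style.haveILetI false

noncomputable section

namespace Fermat.Agent.Two.Flat

open Fermat.Agent.Arith Fermat.Agent.CFT.Flat

theorem eq_zero_of_deep_of_add {X : Type} [AddCommGroup X] (hX : ∀ x : X, x + x = 0)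
    {δ : GQ → X} (hdeep : Tangent.Deep δ)
    (hadd : ∀ g ∈ inG 2, ∀ h ∈ inG 2, δ (g * h) = δ g + δ h) {g : GQ} (hg : g ∈ inG 2) :
    δ g = 0 := by
  letI : Module (ZMod 2) X := AddCommGroup.zmodModule fun x => by rw [two_nsmul]; exact hX x
  haveI : Module.Free (ZMod 2) X := Module.Free.of_divisionRing (ZMod 2) X
  refine (Module.forall_dual_apply_eq_zero_iff (ZMod 2) (δ g)).mp fun l => ?_
  set χ : GQ → ZMod 2 := fun σ => l (δ σ) with hχ
  have hχadd : ∀ g ∈ inG 2, ∀ h ∈ inG 2, χ (g * h) = χ g + χ h := fun g hg h hh => by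
    simp only [hχ, hadd g hg h hh, map_add]
  have h1 : χ 1 = 0 := by
    have h := hχadd 1 (inG 2).one_mem 1 (inG 2).one_mem
    rw [mul_one] at h
    exact left_eq_add.mp h
  have hconj : ∀ τ ∈ inG 2, ∀ g ∈ tame 2, χ (τ⁻¹ * g * τ) = χ g := fun τ hτ g hg => by
    have hgI := ((mem_tame 2).mp hg).1
    have hi := (inG 2).inv_mem hτ
    have e := hχadd _ hi _ hτ
    rw [inv_mul_cancel, h1] at e
    rw [hχadd _ ((inG 2).mul_mem hi hgI) _ hτ, hχadd _ hi _ hgI, add_right_comm, ← e, zero_add]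
  have htame : ∀ g ∈ tame 2, χ g = 0 := fun g hg =>
    eq_zero_of_hasDeep_five hconj (hdeep l.toAddMonoidHom) hg
  obtain ⟨τ, hτ, -, hgen⟩ := exists_tame_generator 2
  have hpow : ∀ i : ℕ, χ (τ ^ i) = (i : ZMod 2) * χ τ := fun i => by
    induction i with
    | zero => rw [pow_zero, h1, Nat.cast_zero, zero_mul]
    | succ i ih =>
      rw [pow_succ, hχadd _ ((inG 2).pow_mem hτ i) _ hτ, ih, Nat.cast_succ, add_mul, one_mul]
  have hτ0 : χ τ = 0 := by
    have hτ3 : τ ^ 3 ∈ tame 2 := by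
      refine (theta_eq_one_iff 2 ((inG 2).pow_mem hτ 3)).mp ?_
      rw [pow_succ, pow_two, theta_mul 2 ((inG 2).mul_mem hτ hτ), theta_mul 2 hτ, ← pow_two,
        ← pow_succ, show (2 + 1 : ℕ) = e₀ 2 from rfl, theta_pow]
    have h3 := hpow 3
    rw [htame _ hτ3, show ((3 : ℕ) : ZMod 2) = 1 by rfl, one_mul] at h3
    exact h3.symm
  obtain ⟨i, hi⟩ := hgen g hg
  have h2 := hχadd _ ((inG 2).pow_mem hτ i) _ ((mem_tame 2).mp hi).1
  rw [mul_inv_cancel_left, htame _ hi, add_zero, hpow, hτ0, mul_zero] at h2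
  exact h2

end Fermat.Agent.Two.Flat
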